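import Mathlib.Analysis.Normed.Affine.Isometry
import Mathlib.Analysis.InnerProductSpace.PiL2
import Mathlib.Analysis.InnerProductSpace.Projection.Submodule

/-!
# Crystallographic groups

An affine isometry of a euclidean space is `x ↦ rotHom γ x + γ 0`.  A crystallographic group has
finitely many elements moving `0` a bounded distance and a cobounded orbit of `0`.
-/

set_option autoImplicit false

noncomputable section

namespace FA.Bieberbach

variable {V : Type*} [NormedAddCommGroup V] [InnerProductSpace ℝ V]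

theorem apply_eq (γ : V ≃ᵃⁱ[ℝ] V) (x : V) : γ x = γ.linearIsometryEquiv x + γ 0 := by
  simpa using γ.map_vadd 0 x

/-- The linear part. -/
def rotHom (V : Type*) [NormedAddCommGroup V] [InnerProductSpace ℝ V] :
    (V ≃ᵃⁱ[ℝ] V) →* (V ≃ₗᵢ[ℝ] V) where
  toFun γ := γ.linearIsometryEquiv
  map_one' := rfl
  map_mul' γ δ := by
    refine LinearIsometryEquiv.ext fun x => ?_
    have h1 := apply_eq (γ * δ) x
    have h2 := apply_eq γ (δ x)
    have h3 := apply_eq γ (δ 0)
    rw [AffineIsometryEquiv.coe_mul, Function.comp_apply, Function.comp_apply, h2, apply_eq δ x,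
      map_add, h3, add_assoc] at h1
    exact (add_right_cancel h1).symm

theorem act_eq (γ : V ≃ᵃⁱ[ℝ] V) (x : V) : γ x = rotHom V γ x + γ 0 := apply_eq γ x

theorem rot_mul_apply (γ δ : V ≃ᵃⁱ[ℝ] V) (x : V) :
    rotHom V (γ * δ) x = rotHom V γ (rotHom V δ x) := by
  rw [map_mul]; rfl

theorem rot_inv_apply (γ : V ≃ᵃⁱ[ℝ] V) (x : V) : rotHom V γ (rotHom V γ⁻¹ x) = x := by
  rw [← rot_mul_apply, mul_inv_cancel, map_one]; rfl

theorem rot_inv_apply' (γ : V ≃ᵃⁱ[ℝ] V) (x : V) : rotHom V γ⁻¹ (rotHom V γ x) = x := by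
  rw [← rot_mul_apply, inv_mul_cancel, map_one]; rfl

theorem mul_zero_apply (γ δ : V ≃ᵃⁱ[ℝ] V) : (γ * δ) 0 = rotHom V γ (δ 0) + γ 0 := by
  rw [AffineIsometryEquiv.coe_mul, Function.comp_apply, act_eq]

theorem inv_zero_apply (γ : V ≃ᵃⁱ[ℝ] V) : γ⁻¹ 0 = -rotHom V γ⁻¹ (γ 0) := by
  have h := mul_zero_apply γ⁻¹ γ
  rw [inv_mul_cancel, AffineIsometryEquiv.coe_one, id] at h
  exact eq_neg_of_add_eq_zero_right h.symm

theorem ext_parts {γ δ : V ≃ᵃⁱ[ℝ] V} (h : rotHom V γ = rotHom V δ) (h0 : γ 0 = δ 0) : γ = δ :=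
  AffineIsometryEquiv.ext fun x => by rw [act_eq γ, act_eq δ, h, h0]

/-- The translation by a vector. -/
def shift (v : V) : V ≃ᵃⁱ[ℝ] V := AffineIsometryEquiv.constVAdd ℝ V v

theorem shift_apply (v x : V) : shift v x = v + x := rfl

theorem shift_zero_apply (v : V) : shift v 0 = v := add_zero v

theorem rotHom_shift (v : V) : rotHom V (shift v) = 1 := by
  refine LinearIsometryEquiv.ext fun x => ?_
  have h := act_eq (shift v) x
  rw [shift_apply, shift_zero_apply, add_comm v x] at h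
  exact (add_right_cancel h).symm

theorem eq_shift {γ : V ≃ᵃⁱ[ℝ] V} (h : rotHom V γ = 1) : γ = shift (γ 0) :=
  ext_parts (by rw [h, rotHom_shift]) (shift_zero_apply _).symm

theorem shift_add (v w : V) : shift (v + w) = shift v * shift w :=
  AffineIsometryEquiv.ext fun x => add_assoc v w x

theorem shift_zero : shift (0 : V) = 1 :=
  AffineIsometryEquiv.ext fun x => zero_add x

theorem shift_neg (v : V) : shift (-v) = (shift v)⁻¹ :=
  eq_inv_of_mul_eq_one_left (by rw [← shift_add, neg_add_cancel, shift_zero])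

theorem conj_shift (γ : V ≃ᵃⁱ[ℝ] V) (v : V) : γ * shift v * γ⁻¹ = shift (rotHom V γ v) := by
  refine ext_parts ?_ ?_
  · rw [map_mul, map_mul, rotHom_shift, rotHom_shift, mul_one, ← map_mul, mul_inv_cancel, map_one]
  · rw [mul_assoc, mul_zero_apply, mul_zero_apply, rotHom_shift, shift_zero_apply,
      shift_zero_apply, inv_zero_apply]
    simp only [LinearIsometryEquiv.coe_one, id, map_add, map_neg]
    rw [rot_inv_apply]
    abel

/-- The rotation part moves no point by more than `ε` times its norm. -/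
def NearId (ε : ℝ) (γ : V ≃ᵃⁱ[ℝ] V) : Prop := ∀ x, ‖rotHom V γ x - x‖ ≤ ε * ‖x‖

/-- **Crystallographic groups**: finitely many elements move `0` a bounded distance, and the
orbit of `0` is cobounded. -/
def IsCrystallographic (G : Subgroup (V ≃ᵃⁱ[ℝ] V)) : Prop :=
  (∀ R : ℝ, {γ | γ ∈ G ∧ ‖γ 0‖ ≤ R}.Finite) ∧ ∃ R : ℝ, ∀ x : V, ∃ γ ∈ G, ‖γ 0 - x‖ ≤ R

end FA.Bieberbach

end
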