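import Fermat.Agent.Bieberbach.Translations
import Mathlib.LinearAlgebra.AffineSpace.AffineEquiv

/-!
# Isomorphisms are affine conjugations

An isomorphism maps translations to translations, so it is linear on them; what remains is a
cocycle of the point group, removed by averaging.
-/

set_option autoImplicit false

noncomputable section

open Module

namespace FA.Bieberbach

variable {V W : Type*} [NormedAddCommGroup V] [InnerProductSpace ℝ V] [FiniteDimensional ℝ V]
  [NormedAddCommGroup W] [InnerProductSpace ℝ W] [FiniteDimensional ℝ W]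
  {G : Subgroup (V ≃ᵃⁱ[ℝ] V)} {H : Subgroup (W ≃ᵃⁱ[ℝ] W)}

theorem mem_ker_map (hH : IsCrystallographic H) (φ : G ≃* H) {γ : G}
    (hγ : γ ∈ (pointHom G).ker) : φ γ ∈ (pointHom H).ker := by
  refine le_ker_of_abelian_normal hH ((pointHom G).ker.map φ.toMonoidHom)
    ((MonoidHom.normal_ker _).map _ φ.surjective) ?_ ⟨γ, hγ, rfl⟩
  rintro _ ⟨x, hx, rfl⟩ _ ⟨y, hy, rfl⟩
  rw [← map_mul, ← map_mul]
  refine congrArg φ.toMonoidHom (Subtype.ext ?_)
  rw [Subgroup.coe_mul, Subgroup.coe_mul, eq_shift (mem_ker_pointHom.1 hx),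
    eq_shift (mem_ker_pointHom.1 hy), ← shift_add, ← shift_add, add_comm]

/-- The translations of the lattice as elements of the group. -/
def latShift (v : transLattice G) : G := ⟨shift (v : V), v.2⟩

theorem latShift_mem_ker (v : transLattice G) : latShift v ∈ (pointHom G).ker :=
  mem_ker_pointHom.2 (rotHom_shift _)

/-- The map of the lattices. -/
def latMap (hH : IsCrystallographic H) (φ : G ≃* H) : transLattice G →+ transLattice H where
  toFun v := ⟨(φ (latShift v)).1 0, apply_zero_mem_transLattice (φ (latShift v)).2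
    (mem_ker_pointHom.1 (mem_ker_map hH φ (latShift_mem_ker v)))⟩
  map_zero' := Subtype.ext (by
    show (φ (latShift 0)).1 0 = 0
    rw [show latShift (0 : transLattice G) = 1 from Subtype.ext shift_zero, map_one]
    rfl)
  map_add' v w := Subtype.ext (by
    show (φ (latShift (v + w))).1 0 = (φ (latShift v)).1 0 + (φ (latShift w)).1 0
    rw [show latShift (v + w) = latShift v * latShift w from Subtype.ext (shift_add _ _), map_mul,
      Subgroup.coe_mul, mul_zero_apply, mem_ker_pointHom.1 (mem_ker_map hH φ (latShift_mem_ker v)),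
      add_comm]
    rfl)

theorem latShift_latMap (hH : IsCrystallographic H) (φ : G ≃* H) (v : transLattice G) :
    latShift (latMap hH φ v) = φ (latShift v) :=
  Subtype.ext (eq_shift (mem_ker_pointHom.1 (mem_ker_map hH φ (latShift_mem_ker v)))).symm

theorem latMap_latMap (hG : IsCrystallographic G) (hH : IsCrystallographic H) (φ : G ≃* H)
    (v : transLattice G) : latMap hG φ.symm (latMap hH φ v) = v := by
  refine Subtype.ext ?_
  show (φ.symm (latShift (latMap hH φ v))).1 0 = v.1
  rw [latShift_latMap, MulEquiv.symm_apply_apply]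
  exact shift_zero_apply _

theorem exists_extension (hG : IsCrystallographic G) (f : transLattice G →+ W) :
    ∃ T : V →ₗ[ℝ] W, ∀ v : transLattice G, T v = f v := by
  haveI := discreteTopology_transLattice hG
  haveI := isZLattice_transLattice hG
  haveI : Module.Finite ℤ (transLattice G) := ZLattice.module_finite ℝ _
  haveI : Module.Free ℤ (transLattice G) := ZLattice.module_free ℝ _
  obtain ⟨b, hb⟩ : ∃ b, b = Free.chooseBasis ℤ (transLattice G) := ⟨_, rfl⟩
  refine ⟨(b.ofZLatticeBasis ℝ (transLattice G)).constr ℝ fun i => f (b i), fun v => ?_⟩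
  have e : ((b.ofZLatticeBasis ℝ (transLattice G)).constr ℝ fun i => f (b i)).restrictScalars ℤ
      ∘ₗ (transLattice G).subtype = f.toIntLinearMap := b.ext fun i => by
    show ((b.ofZLatticeBasis ℝ (transLattice G)).constr ℝ fun i => f (b i)) (b i : V) = f (b i)
    rw [← b.ofZLatticeBasis_apply ℝ (transLattice G) i, Basis.constr_basis]
  exact LinearMap.congr_fun e v

/-- **Bieberbach's second theorem.** -/
theorem exists_affine_conj (hG : IsCrystallographic G) (hH : IsCrystallographic H) (φ : G ≃* H) :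
    ∃ f : V ≃ᵃ[ℝ] W, ∀ (γ : G) (x : V), (φ γ).1 (f x) = f (γ.1 x) := by
  classical
  obtain ⟨T, hT⟩ := exists_extension hG
    ((transLattice H).subtype.toAddMonoidHom.comp (latMap hH φ))
  obtain ⟨S, hS⟩ := exists_extension hH
    ((transLattice G).subtype.toAddMonoidHom.comp (latMap hG φ.symm))
  have hT' : ∀ v : transLattice G, T v = (latMap hH φ v : W) := hT
  have hS' : ∀ v : transLattice H, S v = (latMap hG φ.symm v : V) := hS
  have hST : S.comp T = LinearMap.id := LinearMap.ext_on (span_transLattice hG) fun v hv => by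
    rw [LinearMap.comp_apply, hT' ⟨v, hv⟩, hS', latMap_latMap]
    rfl
  have hTS : T.comp S = LinearMap.id := LinearMap.ext_on (span_transLattice hH) fun v hv => by
    rw [LinearMap.comp_apply, hS' ⟨v, hv⟩, hT']
    exact congrArg Subtype.val (latMap_latMap hH hG φ.symm ⟨v, hv⟩)
  -- the intertwining of the linear parts
  have hint : ∀ (γ : G) (x : V), rotHom W (φ γ).1 (T x) = T (rotHom V γ.1 x) := by
    intro γ x
    refine LinearMap.congr_fun (LinearMap.ext_on
      (f := (rotHom W (φ γ).1).toLinearEquiv.toLinearMap.comp T)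
      (g := T.comp (rotHom V γ.1).toLinearEquiv.toLinearMap) (span_transLattice hG)
      fun v hv => ?_) x
    show rotHom W (φ γ).1 (T v) = T (rotHom V γ.1 v)
    have e : γ * latShift ⟨v, hv⟩ * γ⁻¹ = latShift ⟨_, rot_mem_transLattice γ.2 hv⟩ :=
      Subtype.ext (conj_shift _ _)
    have h := congrArg φ e
    rw [map_mul, map_mul, map_inv, ← latShift_latMap hH, ← latShift_latMap hH] at h
    have h2 := congrArg Subtype.val h
    rw [Subgroup.coe_mul, Subgroup.coe_mul, Subgroup.coe_inv] at h2
    simp only [latShift] at h2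
    rw [conj_shift] at h2
    have h3 := congrArg (fun g : W ≃ᵃⁱ[ℝ] W => g 0) h2
    simp only [shift_zero_apply] at h3
    rw [hT' ⟨v, hv⟩, hT' ⟨_, rot_mem_transLattice γ.2 hv⟩]
    exact h3
  obtain ⟨c, hc⟩ : ∃ c : G → W, c = fun γ => (φ γ).1 0 - T (γ.1 0) := ⟨_, rfl⟩
  have hmul : ∀ γ δ, c (γ * δ) = c γ + rotHom W (φ γ).1 (c δ) := by
    intro γ δ
    simp only [hc, map_mul, Subgroup.coe_mul, mul_zero_apply, map_add, map_sub, hint]
    abel
  have hker : ∀ γ ∈ (pointHom G).ker, c γ = 0 := by
    intro γ hγ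
    obtain ⟨u, hu⟩ : ∃ u : transLattice G, u.1 = γ.1 0 :=
      ⟨⟨_, apply_zero_mem_transLattice γ.2 (mem_ker_pointHom.1 hγ)⟩, rfl⟩
    have e : γ = latShift u := Subtype.ext (by
      rw [eq_shift (mem_ker_pointHom.1 hγ), ← hu]; rfl)
    simp only [hc]
    rw [e, show (latShift u).1 0 = u.1 from shift_zero_apply _, hT' u]
    exact sub_self _
  have hdep : ∀ γ δ : G, pointHom G γ = pointHom G δ → c γ = c δ := by
    intro γ δ h
    have hk : γ⁻¹ * δ ∈ (pointHom G).ker := by
      rw [MonoidHom.mem_ker, map_mul, map_inv, h, inv_mul_cancel]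
    have e := hmul γ (γ⁻¹ * δ)
    rw [mul_inv_cancel_left, hker _ hk, map_zero, add_zero] at e
    exact e.symm
  haveI := finite_pointGroup hG
  haveI := Fintype.ofFinite (pointHom G).range
  choose s hs using fun A : (pointHom G).range => A.2
  obtain ⟨x₀, hx₀⟩ : ∃ x₀ : W, x₀ = (Fintype.card (pointHom G).range : ℝ)⁻¹ • ∑ A, c (s A) :=
    ⟨_, rfl⟩
  have hfix : ∀ γ, c γ = x₀ - rotHom W (φ γ).1 x₀ := by
    intro γ
    have hne : (Fintype.card (pointHom G).range : ℝ) ≠ 0 := Nat.cast_ne_zero.2 Fintype.card_ne_zero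
    obtain ⟨g, hg⟩ : ∃ g : (pointHom G).range, g.1 = pointHom G γ := ⟨⟨_, γ, rfl⟩, rfl⟩
    have h : ∑ A, c (s A) = ∑ A, (c γ + rotHom W (φ γ).1 (c (s A))) := by
      rw [← Equiv.sum_comp (Equiv.mulLeft g)]
      refine Finset.sum_congr rfl fun A _ => ?_
      rw [← hmul]
      refine hdep _ _ ?_
      rw [hs, map_mul, hs, ← hg]
      rfl
    rw [Finset.sum_add_distrib, Finset.sum_const, Finset.card_univ, ← map_sum,
      ← Nat.cast_smul_eq_nsmul ℝ] at h
    have h' := congrArg ((Fintype.card (pointHom G).range : ℝ)⁻¹ • ·) h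
    simp only [smul_add, inv_smul_smul₀ hne, ← map_smul, ← hx₀] at h'
    exact eq_sub_of_add_eq h'.symm
  refine ⟨((LinearEquiv.ofLinearMap T S hTS hST).toAffineEquiv).trans
    (AffineEquiv.constVAdd ℝ W x₀), fun γ x => ?_⟩
  show (φ γ).1 (x₀ + T x) = x₀ + T (γ.1 x)
  have h := hfix γ
  simp only [hc] at h
  rw [act_eq (φ γ).1, act_eq γ.1, map_add, map_add, hint, eq_add_of_sub_eq h]
  abel

end FA.Bieberbach

end
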