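import Fermat.Agent.Bieberbach.Basic
import Mathlib.Analysis.Normed.Operator.LinearIsometry

/-!
# Symmorphic groups

A finite group of linear isometries preserving the integral points gives, together with the
integral translations, a crystallographic group.
-/

set_option autoImplicit false

noncomputable section

namespace FA.Bieberbach

variable {n : ℕ}

/-- The integral points. -/
def intPoints (n : ℕ) : AddSubgroup (EuclideanSpace ℝ (Fin n)) where
  carrier := {v | ∀ i, ∃ z : ℤ, v i = z}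
  zero_mem' i := ⟨0, by simp⟩
  add_mem' {v w} hv hw i := by
    obtain ⟨a, ha⟩ := hv i
    obtain ⟨b, hb⟩ := hw i
    exact ⟨a + b, by simp [ha, hb]⟩
  neg_mem' {v} hv i := by
    obtain ⟨a, ha⟩ := hv i
    exact ⟨-a, by simp [ha]⟩

/-- The symmorphic group of a point group. -/
def symmorphic (P : Subgroup (EuclideanSpace ℝ (Fin n) ≃ₗᵢ[ℝ] EuclideanSpace ℝ (Fin n)))
    (hP : ∀ A ∈ P, ∀ v ∈ intPoints n, A v ∈ intPoints n) :
    Subgroup (EuclideanSpace ℝ (Fin n) ≃ᵃⁱ[ℝ] EuclideanSpace ℝ (Fin n)) where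
  carrier := {γ | rotHom _ γ ∈ P ∧ γ 0 ∈ intPoints n}
  one_mem' := ⟨by rw [map_one]; exact P.one_mem, (intPoints n).zero_mem⟩
  mul_mem' {γ δ} hγ hδ := ⟨by rw [map_mul]; exact P.mul_mem hγ.1 hδ.1, by
    rw [mul_zero_apply]; exact (intPoints n).add_mem (hP _ hγ.1 _ hδ.2) hγ.2⟩
  inv_mem' {γ} hγ := ⟨by rw [map_inv]; exact P.inv_mem hγ.1, by
    rw [inv_zero_apply]
    exact (intPoints n).neg_mem (hP _ (by rw [map_inv]; exact P.inv_mem hγ.1) _ hγ.2)⟩

theorem isCrystallographic_symmorphic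
    (P : Subgroup (EuclideanSpace ℝ (Fin n) ≃ₗᵢ[ℝ] EuclideanSpace ℝ (Fin n)))
    (hP : ∀ A ∈ P, ∀ v ∈ intPoints n, A v ∈ intPoints n) [Finite P] :
    IsCrystallographic (symmorphic P hP) := by
  classical
  refine ⟨fun R => ?_, ⟨Real.sqrt n, fun x => ?_⟩⟩
  · obtain ⟨N, hN⟩ := exists_nat_ge R
    refine Set.Finite.of_finite_image (f := fun γ => (rotHom _ γ, fun i => ⌊γ 0 i⌋)) ?_ ?_
    · refine ((Set.toFinite (P : Set _)).prod
        (Set.Finite.pi fun _ : Fin n => Set.finite_Icc (-(N : ℤ)) N)).subset ?_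
      rintro _ ⟨γ, ⟨hγ, hγR⟩, rfl⟩
      refine ⟨hγ.1, fun i _ => ?_⟩
      obtain ⟨z, hz⟩ := hγ.2 i
      have h := (PiLp.norm_apply_le (γ 0) i).trans (hγR.trans hN)
      rw [hz, Real.norm_eq_abs] at h
      have h' : |z| ≤ (N : ℤ) := by exact_mod_cast h
      simpa [hz] using abs_le.1 h'
    · rintro γ ⟨hγ, -⟩ δ ⟨hδ, -⟩ h
      simp only [Prod.mk.injEq] at h
      refine ext_parts h.1 (PiLp.ext fun i => ?_)
      obtain ⟨a, ha⟩ := hγ.2 i
      obtain ⟨b, hb⟩ := hδ.2 i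
      have h2 := congrFun h.2 i
      simp only [ha, hb, Int.floor_intCast] at h2
      rw [ha, hb, h2]
  · obtain ⟨v, hv⟩ : ∃ v : EuclideanSpace ℝ (Fin n), v = WithLp.toLp 2 fun i => (⌊x i⌋ : ℝ) :=
      ⟨_, rfl⟩
    have hvi : v ∈ intPoints n := fun i => ⟨⌊x i⌋, by rw [hv]⟩
    refine ⟨shift v, ⟨by rw [rotHom_shift]; exact P.one_mem, (shift_zero_apply v).symm ▸ hvi⟩, ?_⟩
    rw [shift_zero_apply, EuclideanSpace.norm_eq]
    refine Real.sqrt_le_sqrt ?_
    refine (Finset.sum_le_card_nsmul _ _ 1 fun i _ => ?_).trans (by simp)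
    rw [Real.norm_eq_abs, sq_abs, hv]
    have h1 := Int.floor_le (x i)
    have h2 := Int.lt_floor_add_one (x i)
    show ((⌊x i⌋ : ℝ) - x i) ^ 2 ≤ 1
    nlinarith

end FA.Bieberbach

end
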