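import Fermat.Agent.Bieberbach.Translations
import Fermat.Agent.Root.SummaryJordanZassenhaus
import Mathlib.LinearAlgebra.Matrix.GeneralLinearGroup.Defs
import Mathlib.Data.ZMod.Basic

/-!
# Finitely many crystallographic groups

In integral coordinates the point group is one of finitely many subgroups `P` of `GL n ℤ`, and
after averaging the translation parts have denominator `|P|`.
-/

set_option autoImplicit false

noncomputable section

open Module Matrix

namespace FA.Bieberbach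

variable {n : ℕ} {V : Type*} [NormedAddCommGroup V] [InnerProductSpace ℝ V] [FiniteDimensional ℝ V]
  {G G' : Subgroup (V ≃ᵃⁱ[ℝ] V)}

/-- Integer coordinates. -/
def castInt (z : Fin n → ℤ) : Fin n → ℝ := fun i => (z i : ℝ)

/-- An integral matrix as a real one. -/
def realMat (M : GL (Fin n) ℤ) : Matrix (Fin n) (Fin n) ℝ :=
  (Int.castRingHom ℝ).mapMatrix M.1

theorem realMat_mul (M N : GL (Fin n) ℤ) : realMat (M * N) = realMat M * realMat N :=
  map_mul (Int.castRingHom ℝ).mapMatrix _ _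

theorem realMat_one : realMat (1 : GL (Fin n) ℤ) = 1 :=
  map_one (Int.castRingHom ℝ).mapMatrix

theorem realMat_castInt (M : GL (Fin n) ℤ) (z : Fin n → ℤ) :
    realMat M *ᵥ castInt z = castInt (M.1 *ᵥ z) :=
  funext fun i => by simp [realMat, castInt, mulVec, dotProduct]

/-- **Integral coordinates** with point group in a given finite list. -/
theorem exists_integral_coords (hG : IsCrystallographic G) (hn : finrank ℝ V = n)
    {F : Finset (Subgroup (GL (Fin n) ℤ))}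
    (hF : ∀ H : Subgroup (GL (Fin n) ℤ), Finite H →
      ∃ H' ∈ F, ∃ P, H' = H.map (MulAut.conj P).toMonoidHom) :
    ∃ (e : V ≃ₗ[ℝ] (Fin n → ℝ)) (M : G →* GL (Fin n) ℤ),
      M.range ∈ F ∧ Finite M.range ∧ (∀ v, v ∈ transLattice G ↔ ∃ z, e v = castInt z) ∧
      ∀ (γ : G) (v : V), e (rotHom V γ.1 v) = realMat (M γ) *ᵥ e v := by
  classical
  haveI := discreteTopology_transLattice hG
  haveI := isZLattice_transLattice hG
  haveI : Module.Finite ℤ (transLattice G) := ZLattice.module_finite ℝ _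
  haveI : Module.Free ℤ (transLattice G) := ZLattice.module_free ℝ _
  obtain ⟨b⟩ : Nonempty (Basis (Fin n) ℤ (transLattice G)) :=
    ⟨Module.finBasisOfFinrankEq ℤ _ ((ZLattice.rank ℝ (transLattice G)).trans hn)⟩
  obtain ⟨e₀, he₀⟩ : ∃ e₀ : V ≃ₗ[ℝ] (Fin n → ℝ),
      e₀ = (b.ofZLatticeBasis ℝ (transLattice G)).equivFun := ⟨_, rfl⟩
  have hL : ∀ v : transLattice G, e₀ (v : V) = castInt (b.equivFun v) := fun v => funext fun i => by
    simp [he₀, castInt]
  have hmem : ∀ v, v ∈ transLattice G ↔ ∃ z, e₀ v = castInt z := fun v => by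
    refine ⟨fun hv => ⟨_, hL ⟨v, hv⟩⟩, fun ⟨z, hz⟩ => ?_⟩
    have h := hL (b.equivFun.symm z)
    rw [b.equivFun.apply_symm_apply, ← hz] at h
    exact e₀.injective h ▸ (b.equivFun.symm z).2
  obtain ⟨res, hres⟩ : ∃ res : G → (transLattice G →ₗ[ℤ] transLattice G),
      ∀ γ v, (res γ v : V) = rotHom V γ.1 v :=
    ⟨fun γ => (((rotHom V γ.1).toLinearEquiv.toLinearMap.restrictScalars ℤ).restrict
      fun v hv => rot_mem_transLattice γ.2 hv), fun _ _ => rfl⟩
  obtain ⟨M₁, hM₁⟩ : ∃ M₁ : G →* Matrix (Fin n) (Fin n) ℤ,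
      ∀ γ, M₁ γ = LinearMap.toMatrix b b (res γ) := by
    refine ⟨{ toFun := fun γ => LinearMap.toMatrix b b (res γ), map_one' := ?_, map_mul' := ?_ },
      fun _ => rfl⟩
    · rw [show res 1 = LinearMap.id from LinearMap.ext fun v => Subtype.ext (by
        rw [hres, Subgroup.coe_one, map_one]; rfl), LinearMap.toMatrix_id]
    · intro γ δ
      rw [← LinearMap.toMatrix_comp b b b]
      refine congrArg _ (LinearMap.ext fun v => Subtype.ext ?_)
      rw [LinearMap.comp_apply, hres, hres, hres, Subgroup.coe_mul, rot_mul_apply]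
  have hint₁ : ∀ (γ : G) (v : V),
      e₀ (rotHom V γ.1 v) = realMat (M₁.toHomUnits γ) *ᵥ e₀ v := by
    intro γ v
    refine LinearMap.congr_fun (LinearMap.ext_on
      (f := e₀.toLinearMap.comp (rotHom V γ.1).toLinearEquiv.toLinearMap)
      (g := (Matrix.toLin' (realMat (M₁.toHomUnits γ))).comp e₀.toLinearMap)
      (span_transLattice hG) fun w hw => ?_) v
    show e₀ (rotHom V γ.1 w) = realMat (M₁.toHomUnits γ) *ᵥ e₀ w
    rw [← hres γ ⟨w, hw⟩, hL, hL ⟨w, hw⟩, realMat_castInt, MonoidHom.coe_toHomUnits, hM₁,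
      Basis.equivFun_apply, Basis.equivFun_apply, LinearMap.toMatrix_mulVec_repr]
  have hdep : ∀ γ δ : G, pointHom G γ = pointHom G δ → M₁.toHomUnits γ = M₁.toHomUnits δ := by
    intro γ δ h
    refine Units.ext ?_
    rw [MonoidHom.coe_toHomUnits, MonoidHom.coe_toHomUnits, hM₁, hM₁]
    refine congrArg _ (LinearMap.ext fun v => Subtype.ext ?_)
    rw [hres, hres]
    exact congrArg (fun A : V ≃ₗᵢ[ℝ] V => A (v : V)) h
  haveI := finite_pointGroup hG
  choose s hs using fun A : (pointHom G).range => A.2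
  haveI hfin₁ : Finite M₁.toHomUnits.range := by
    refine Finite.of_surjective (fun A => (⟨_, ⟨s A, rfl⟩⟩ : M₁.toHomUnits.range)) ?_
    rintro ⟨_, γ, rfl⟩
    exact ⟨⟨_, γ, rfl⟩, Subtype.ext (hdep _ _ (hs ⟨_, γ, rfl⟩))⟩
  obtain ⟨H', hH', P, hP⟩ := hF M₁.toHomUnits.range hfin₁
  obtain ⟨M, hM⟩ : ∃ M : G →* GL (Fin n) ℤ,
      M = (MulAut.conj P).toMonoidHom.comp M₁.toHomUnits := ⟨_, rfl⟩
  have hrange : M.range = H' := by rw [hM, MonoidHom.range_comp, hP]
  obtain ⟨p, hp⟩ : ∃ p : (Fin n → ℝ) ≃ₗ[ℝ] (Fin n → ℝ), ∀ x, p x = realMat P *ᵥ x :=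
    ⟨LinearEquiv.ofLinearMap (Matrix.toLin' (realMat P)) (Matrix.toLin' (realMat P⁻¹))
      (by rw [← Matrix.toLin'_mul, ← realMat_mul, mul_inv_cancel, realMat_one, Matrix.toLin'_one])
      (by rw [← Matrix.toLin'_mul, ← realMat_mul, inv_mul_cancel, realMat_one, Matrix.toLin'_one]),
      fun _ => rfl⟩
  refine ⟨e₀.trans p, M, hrange ▸ hH', ?_, fun v => ?_, fun γ v => ?_⟩
  · rw [hM, MonoidHom.range_comp]
    exact Finite.of_equiv _ (M₁.toHomUnits.range.equivMapOfInjective _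
      (MulAut.conj P).injective).toEquiv
  · rw [hmem, LinearEquiv.trans_apply, hp]
    refine ⟨fun ⟨z, hz⟩ => ⟨P.1 *ᵥ z, by rw [hz, realMat_castInt]⟩, fun ⟨z, hz⟩ =>
      ⟨(P⁻¹).1 *ᵥ z, ?_⟩⟩
    rw [← realMat_castInt, ← hz, mulVec_mulVec, ← realMat_mul, inv_mul_cancel, realMat_one,
      one_mulVec]
  · rw [LinearEquiv.trans_apply, LinearEquiv.trans_apply, hp, hp, hint₁, hM]
    show _ = realMat (P * M₁.toHomUnits γ * P⁻¹) *ᵥ _
    rw [mulVec_mulVec, mulVec_mulVec, ← realMat_mul, ← realMat_mul, inv_mul_cancel_right]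

/-- The permutations of `ℝ ^ n` determined by a point group and residues. -/
def modelSet (H : Subgroup (GL (Fin n) ℤ)) (K : Set (H × (Fin n → ZMod (Nat.card H)))) :
    Set (Equiv.Perm (Fin n → ℝ)) :=
  {f | ∃ (h : H) (v : Fin n → ℝ) (w : Fin n → ℤ), (Nat.card H : ℝ) • v = castInt w ∧
    (h, fun i => (w i : ZMod (Nat.card H))) ∈ K ∧ ∀ z, f z = realMat h.1 *ᵥ z + v}

/-- The group is the one of a key, in suitable coordinates. -/
def HasKey (G : Subgroup (V ≃ᵃⁱ[ℝ] V)) (H : Subgroup (GL (Fin n) ℤ))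
    (K : Set (H × (Fin n → ZMod (Nat.card H)))) : Prop :=
  ∃ c : V ≃ (Fin n → ℝ), {f | ∃ γ ∈ G, f = c.permCongr γ.toEquiv} = modelSet H K

/-- Conjugation by coordinates. -/
def coordHom (c : V ≃ (Fin n → ℝ)) (G : Subgroup (V ≃ᵃⁱ[ℝ] V)) :
    G →* Equiv.Perm (Fin n → ℝ) where
  toFun γ := c.permCongr γ.1.toEquiv
  map_one' := Equiv.ext fun z => c.apply_symm_apply z
  map_mul' γ δ := Equiv.ext fun z => by
    show c (γ.1 (δ.1 (c.symm z))) = c (γ.1 (c.symm (c (δ.1 (c.symm z)))))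
    rw [c.symm_apply_apply]

omit [FiniteDimensional ℝ V] in
theorem coordHom_injective (c : V ≃ (Fin n → ℝ)) : Function.Injective (coordHom c G) :=
  fun γ δ h => Subtype.ext (AffineIsometryEquiv.ext fun x => c.injective (by
    have := congrArg (fun f : Equiv.Perm (Fin n → ℝ) => f (c x)) h
    simpa [coordHom] using this))

omit [FiniteDimensional ℝ V] in
theorem nonempty_iso_of_key {H : Subgroup (GL (Fin n) ℤ)}
    {K : Set (H × (Fin n → ZMod (Nat.card H)))} (h : HasKey G H K) (h' : HasKey G' H K) :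
    Nonempty (G ≃* G') := by
  obtain ⟨c, hc⟩ := h
  obtain ⟨c', hc'⟩ := h'
  have key : ∀ (c : V ≃ (Fin n → ℝ)) (G : Subgroup (V ≃ᵃⁱ[ℝ] V)),
      ((coordHom c G).range : Set (Equiv.Perm (Fin n → ℝ))) =
        {f | ∃ γ ∈ G, f = c.permCongr γ.toEquiv} := fun c G => by
    ext f
    exact ⟨fun ⟨γ, hγ⟩ => ⟨γ.1, γ.2, hγ.symm⟩, fun ⟨γ, hγ, e⟩ => ⟨⟨γ, hγ⟩, e.symm⟩⟩
  have e : (coordHom c G).range = (coordHom c' G').range :=
    SetLike.coe_injective (by rw [key, key, hc, hc'])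
  exact ⟨((MonoidHom.ofInjective (coordHom_injective c)).trans
    (MulEquiv.subgroupCongr e)).trans (MonoidHom.ofInjective (coordHom_injective c')).symm⟩

theorem exists_key (hG : IsCrystallographic G) (hn : finrank ℝ V = n)
    {F : Finset (Subgroup (GL (Fin n) ℤ))}
    (hF : ∀ H : Subgroup (GL (Fin n) ℤ), Finite H →
      ∃ H' ∈ F, ∃ P, H' = H.map (MulAut.conj P).toMonoidHom) :
    ∃ H : Subgroup (GL (Fin n) ℤ), H ∈ F ∧ Finite H ∧
      ∃ K : Set (H × (Fin n → ZMod (Nat.card H))), HasKey G H K := by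
  classical
  obtain ⟨e, M, hMF, hMfin, hmem, hint⟩ := exists_integral_coords hG hn hF
  haveI := Fintype.ofFinite M.range
  obtain ⟨N, hN⟩ : ∃ N : ℕ, N = Nat.card M.range := ⟨_, rfl⟩
  have hN0 : (N : ℝ) ≠ 0 := Nat.cast_ne_zero.2 (hN ▸ Nat.card_pos.ne')
  have hsame : ∀ γ δ : G, M γ = M δ → ∃ z, e (γ.1 0) - e (δ.1 0) = castInt z := by
    intro γ δ h
    have hrot : rotHom V γ.1 = rotHom V δ.1 := LinearIsometryEquiv.ext fun v => e.injective (by
      rw [hint, hint, h])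
    have ht : rotHom V (γ * δ⁻¹ : G).1 = 1 := by
      rw [Subgroup.coe_mul, Subgroup.coe_inv, map_mul, map_inv, hrot, mul_inv_cancel]
    obtain ⟨z, hz⟩ := (hmem _).1 (apply_zero_mem_transLattice (γ * δ⁻¹ : G).2 ht)
    refine ⟨z, ?_⟩
    have h1 := mul_zero_apply (γ * δ⁻¹ : G).1 δ.1
    rw [← Subgroup.coe_mul, inv_mul_cancel_right, ht] at h1
    rw [h1, map_add, hz]
    exact add_sub_cancel_left _ _
  choose s hs using fun A : M.range => A.2
  obtain ⟨y, hy⟩ : ∃ y, y = (N : ℝ)⁻¹ • ∑ A : M.range, e ((s A).1 0) := ⟨_, rfl⟩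
  obtain ⟨tr, htr⟩ : ∃ tr : G → Fin n → ℝ,
      tr = fun γ => e (γ.1 0) + realMat (M γ) *ᵥ y - y := ⟨_, rfl⟩
  have hint' : ∀ γ : G, ∃ w, (N : ℝ) • tr γ = castInt w := by
    intro γ
    obtain ⟨g, hg⟩ : ∃ g : M.range, g.1 = M γ := ⟨⟨_, γ, rfl⟩, rfl⟩
    choose z hz using fun A => hsame (γ * s A) (s (g * A)) (by
      rw [map_mul, hs, hs, ← hg]; rfl)
    refine ⟨∑ A, z A, ?_⟩
    have hsum : ∑ A, e ((s (g * A)).1 0) = ∑ A, e ((s A).1 0) :=
      Equiv.sum_comp (Equiv.mulLeft g) fun A => e ((s A).1 0)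
    have h := Finset.sum_congr (s₁ := Finset.univ) rfl fun A (_ : A ∈ Finset.univ) => hz A
    rw [Finset.sum_sub_distrib, hsum] at h
    simp only [Subgroup.coe_mul, mul_zero_apply, map_add, hint] at h
    rw [Finset.sum_add_distrib, Finset.sum_const, Finset.card_univ, ← mulVec_sum,
      ← Nat.card_eq_fintype_card, ← hN, ← Nat.cast_smul_eq_nsmul ℝ] at h
    have hNy : (N : ℝ) • y = ∑ A : M.range, e ((s A).1 0) := by rw [hy, smul_inv_smul₀ hN0]
    rw [htr]
    simp only [smul_sub, smul_add, ← mulVec_smul, hNy]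
    rw [add_comm ((N : ℝ) • e (γ.1 0))]
    refine h.trans (funext fun i => ?_)
    simp [castInt]
  choose w hw using hint'
  refine ⟨M.range, hMF, hMfin,
    Set.range fun γ : G => ((⟨M γ, γ, rfl⟩ : M.range), fun i => (w γ i : ZMod (Nat.card M.range))),
    e.toEquiv.trans (Equiv.subRight y), ?_⟩
  have hcoord : ∀ (γ : G) (z : Fin n → ℝ),
      (e.toEquiv.trans (Equiv.subRight y)).permCongr γ.1.toEquiv z =
        realMat (M γ) *ᵥ z + tr γ := fun γ z => by
    show e (γ.1 (e.symm (z + y))) - y = _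
    rw [act_eq, map_add, hint, e.apply_symm_apply, mulVec_add, htr]
    abel
  ext f
  constructor
  · rintro ⟨γ, hγ, rfl⟩
    exact ⟨⟨M ⟨γ, hγ⟩, _, rfl⟩, tr ⟨γ, hγ⟩, w ⟨γ, hγ⟩, hN ▸ hw _, ⟨⟨γ, hγ⟩, rfl⟩,
      fun z => hcoord ⟨γ, hγ⟩ z⟩
  · rintro ⟨h, v, w', hv, ⟨δ, hδ⟩, hf⟩
    obtain ⟨hh, hres⟩ := Prod.mk.injEq .. ▸ hδ
    have hdvd : ∀ i, (N : ℤ) ∣ w' i - w δ i := fun i => by
      rw [← ZMod.intCast_zmod_eq_zero_iff_dvd, Int.cast_sub, sub_eq_zero, hN]
      exact (congrFun hres i).symm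
    choose k hk using hdvd
    have hshift : shift (e.symm (castInt k)) ∈ G :=
      (hmem _).2 ⟨k, e.apply_symm_apply _⟩
    refine ⟨shift (e.symm (castInt k)) * δ.1, G.mul_mem hshift δ.2, Equiv.ext fun z => ?_⟩
    rw [hf]
    show _ = e (shift (e.symm (castInt k)) (δ.1 (e.symm (z + y)))) - y
    rw [shift_apply, map_add, e.apply_symm_apply, add_sub_assoc,
      show e (δ.1 (e.symm (z + y))) - y = realMat (M δ) *ᵥ z + tr δ from hcoord δ z,
      ← congrArg Subtype.val hh]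
    have hv' : v = castInt k + tr δ := by
      refine smul_right_injective _ hN0 ?_
      show (N : ℝ) • v = (N : ℝ) • (castInt k + tr δ)
      rw [smul_add, hw, hN, hv, ← hN]
      funext i
      have h1 := congrArg (fun x : ℤ => (x : ℝ)) (hk i)
      simp only [Int.cast_sub, Int.cast_mul, Int.cast_natCast] at h1
      simp only [castInt, Pi.add_apply, Pi.smul_apply, smul_eq_mul]
      linarith
    rw [hv']
    abel

/-- **Bieberbach's third theorem.** -/
theorem exists_finite_classes (hn : finrank ℝ V = n) :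
    ∃ F : Set (Subgroup (V ≃ᵃⁱ[ℝ] V)), F.Finite ∧ (∀ G ∈ F, IsCrystallographic (V := V) G) ∧
      ∀ G : Subgroup (V ≃ᵃⁱ[ℝ] V), IsCrystallographic G → ∃ G' ∈ F, Nonempty (G ≃* G') := by
  classical
  obtain ⟨F₀, hF₀⟩ := FA.Summary.jordan_finite_subgroups n
  haveI : ∀ H : {H : Subgroup (GL (Fin n) ℤ) // H ∈ F₀ ∧ Finite H},
      Finite (Set (H.1 × (Fin n → ZMod (Nat.card H.1)))) := fun H => by
    haveI := H.2.2
    haveI : NeZero (Nat.card H.1) := ⟨Nat.card_pos.ne'⟩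
    infer_instance
  haveI : Finite {H : Subgroup (GL (Fin n) ℤ) // H ∈ F₀ ∧ Finite H} :=
    ((F₀.finite_toSet).subset fun H hH => hH.1 :
      {H : Subgroup (GL (Fin n) ℤ) | H ∈ F₀ ∧ Finite H}.Finite).to_subtype
  obtain ⟨S, hS⟩ : ∃ S : Set (Σ H : {H : Subgroup (GL (Fin n) ℤ) // H ∈ F₀ ∧ Finite H},
      Set (H.1 × (Fin n → ZMod (Nat.card H.1)))),
      S = {k | ∃ G : Subgroup (V ≃ᵃⁱ[ℝ] V), IsCrystallographic G ∧ HasKey G k.1.1 k.2} := ⟨_, rfl⟩
  have hS' : ∀ k : S, ∃ G : Subgroup (V ≃ᵃⁱ[ℝ] V),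
      IsCrystallographic G ∧ HasKey G k.1.1.1 k.1.2 := by
    rintro ⟨k, hk⟩
    rw [hS] at hk
    exact hk
  choose g hgc hgk using hS'
  refine ⟨Set.range g, Set.finite_range g, by rintro _ ⟨k, rfl⟩; exact hgc k, fun G hG => ?_⟩
  obtain ⟨H, hH, hfin, K, hK⟩ := exists_key hG hn hF₀
  obtain ⟨k, hk⟩ : ∃ k : S, k.1 = ⟨⟨H, hH, hfin⟩, K⟩ :=
    ⟨⟨_, hS ▸ ⟨G, hG, hK⟩⟩, rfl⟩
  have := hgk k
  rw [hk] at this
  exact ⟨g k, ⟨k, rfl⟩, nonempty_iso_of_key hK this⟩

end FA.Bieberbach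

end
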