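import Fermat.Agent.Bieberbach.Basic
import Mathlib.GroupTheory.OrderOfElement

/-!
# Torsion and fixed points

An element of a crystallographic group has finite order iff it fixes a point.
-/

set_option autoImplicit false

noncomputable section

namespace FA.Bieberbach

variable {V : Type*} [NormedAddCommGroup V] [InnerProductSpace ℝ V]
  {G : Subgroup (V ≃ᵃⁱ[ℝ] V)}

/-- No element other than `1` has finite order. -/
def IsTorsionFreeGroup (G : Subgroup (V ≃ᵃⁱ[ℝ] V)) : Prop :=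
  ∀ γ ∈ G, ∀ k : ℕ, 0 < k → γ ^ k = 1 → γ = 1

/-- No element other than `1` fixes a point. -/
def ActsFreely (G : Subgroup (V ≃ᵃⁱ[ℝ] V)) : Prop :=
  ∀ γ ∈ G, ∀ x : V, γ x = x → γ = 1

theorem pow_fixes {γ : V ≃ᵃⁱ[ℝ] V} {x : V} (h : γ x = x) : ∀ k : ℕ, (γ ^ k) x = x
  | 0 => by rw [pow_zero, AffineIsometryEquiv.coe_one]; rfl
  | k + 1 => by
    rw [pow_succ, AffineIsometryEquiv.coe_mul, Function.comp_apply, h, pow_fixes h k]

theorem torsionFree_of_free (h : ActsFreely G) : IsTorsionFreeGroup G := by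
  intro γ hγ k hk hpow
  obtain ⟨c, hc⟩ : ∃ c : V, c = (k : ℝ)⁻¹ • ∑ j ∈ Finset.range k, (γ ^ j) 0 := ⟨_, rfl⟩
  refine h γ hγ c ?_
  have hk' : (k : ℝ) ≠ 0 := Nat.cast_ne_zero.2 hk.ne'
  have hshift : ∑ j ∈ Finset.range k, (γ ^ (j + 1)) 0 = ∑ j ∈ Finset.range k, (γ ^ j) 0 := by
    have h1 := Finset.sum_range_succ' (fun j => (γ ^ j) 0) k
    have h2 := Finset.sum_range_succ (fun j => (γ ^ j) 0) k
    simp only [hpow, pow_zero] at h1 h2
    rw [h2] at h1
    exact (add_right_cancel h1).symm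
  have e : ∀ j : ℕ, (γ ^ (j + 1)) 0 = rotHom V γ ((γ ^ j) 0) + γ 0 := fun j => by
    rw [pow_succ', mul_zero_apply]
  simp only [e, Finset.sum_add_distrib, Finset.sum_const, Finset.card_range] at hshift
  rw [← map_sum, ← Nat.cast_smul_eq_nsmul ℝ] at hshift
  have h3 := congrArg ((k : ℝ)⁻¹ • ·) hshift
  simp only [smul_add, inv_smul_smul₀ hk', ← map_smul, ← hc] at h3
  rw [act_eq]
  exact h3

theorem free_of_torsionFree (hG : IsCrystallographic G) (h : IsTorsionFreeGroup G) :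
    ActsFreely G := by
  intro γ hγ x hx
  have hfin : (Set.range fun k : ℕ => γ ^ k).Finite := by
    refine (hG.1 (2 * ‖x‖)).subset ?_
    rintro _ ⟨k, rfl⟩
    refine ⟨G.pow_mem hγ k, ?_⟩
    have e := act_eq (γ ^ k) x
    rw [pow_fixes hx k] at e
    rw [show (γ ^ k) 0 = x - rotHom V (γ ^ k) x from eq_sub_of_add_eq' e.symm, two_mul]
    refine (norm_sub_le _ _).trans ?_
    rw [LinearIsometryEquiv.norm_map]
  obtain ⟨a, -, b, -, hab, he⟩ :=
    Set.infinite_univ.exists_lt_map_eq_of_mapsTo (f := fun k : ℕ => γ ^ k)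
      (fun k _ => Set.mem_range_self k) hfin
  refine h γ hγ (b - a) (Nat.sub_pos_of_lt hab) ?_
  have h' : γ ^ (b - a) * γ ^ a = γ ^ a := by
    rw [← pow_add, Nat.sub_add_cancel hab.le]
    exact he.symm
  exact mul_eq_right.1 h'

end FA.Bieberbach

end
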