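import Fermat.Agent.Bieberbach.Example
import Fermat.Agent.Bieberbach.FreeAction
import Mathlib.GroupTheory.Coset.Basic
import Mathlib.Analysis.Normed.Lp.PiLp

/-!
# Every finite group is a point group without torsion

`G` permutes the coordinates indexed by the cosets of all its cyclic subgroups; an element over `h`
is given a translation which on the fixed coordinate of `⟨h⟩` is `1 / orderOf h` modulo `1`.
-/

set_option autoImplicit false

noncomputable section

namespace FA.Bieberbach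

variable {G : Type*} [Group G]

/-- The cosets of the cyclic subgroups. -/
def CycCoset (G : Type*) [Group G] : Type _ := Σ g : G, G ⧸ Subgroup.zpowers g

instance [Finite G] : Finite (CycCoset G) := inferInstanceAs (Finite (Σ g : G, _))

/-- The action on them. -/
def cycPerm (h : G) : Equiv.Perm (CycCoset G) :=
  Equiv.sigmaCongrRight fun _ => MulAction.toPerm h

theorem cycPerm_inv_apply (h g : G) (q : G ⧸ Subgroup.zpowers g) :
    (cycPerm h)⁻¹ ⟨g, q⟩ = ⟨g, h⁻¹ • q⟩ := rfl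

theorem cycPerm_one : cycPerm (1 : G) = 1 :=
  Equiv.ext fun ⟨g, q⟩ => congrArg (Sigma.mk g) (one_smul G q)

theorem cycPerm_mul (h k : G) : cycPerm (h * k) = cycPerm h * cycPerm k :=
  Equiv.ext fun ⟨g, q⟩ => congrArg (Sigma.mk g) (mul_smul h k q)

/-- An exponent in a cyclic group. -/
def cycLog (g x : G) : ℕ := by
  classical exact if h : ∃ j : ℕ, g ^ j = x then h.choose else 0

theorem pow_cycLog [Finite G] {g x : G} (hx : x ∈ Subgroup.zpowers g) : g ^ cycLog g x = x := by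
  classical
  have h : ∃ j : ℕ, g ^ j = x := by
    rw [← mem_powers_iff_mem_zpowers] at hx
    exact hx
  rw [cycLog, dif_pos h]
  exact h.choose_spec

/-- Congruence modulo one. -/
def CongrOne (a b : ℝ) : Prop := ∃ z : ℤ, a - b = z

theorem CongrOne.symm {a b : ℝ} (h : CongrOne a b) : CongrOne b a := by
  obtain ⟨z, hz⟩ := h
  exact ⟨-z, by push_cast; linarith⟩

theorem CongrOne.trans {a b c : ℝ} (h : CongrOne a b) (h' : CongrOne b c) : CongrOne a c := by
  obtain ⟨z, hz⟩ := h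
  obtain ⟨w, hw⟩ := h'
  exact ⟨z + w, by push_cast; linarith⟩

theorem CongrOne.add {a b c d : ℝ} (h : CongrOne a b) (h' : CongrOne c d) :
    CongrOne (a + c) (b + d) := by
  obtain ⟨z, hz⟩ := h
  obtain ⟨w, hw⟩ := h'
  exact ⟨z + w, by push_cast; linarith⟩

theorem congrOne_div [Finite G] {g : G} {j k : ℕ} (h : g ^ j = g ^ k) :
    CongrOne ((j : ℝ) / orderOf g) ((k : ℝ) / orderOf g) := by
  obtain ⟨z, hz⟩ := Nat.modEq_iff_dvd.1 (pow_eq_pow_iff_modEq.1 h)
  have h0 : (orderOf g : ℝ) ≠ 0 := Nat.cast_ne_zero.2 (orderOf_pos g).ne'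
  refine ⟨-z, ?_⟩
  have h1 := congrArg (fun x : ℤ => (x : ℝ)) hz
  push_cast at h1 ⊢
  field_simp
  linarith

/-- The translation over `h`. -/
def cycShift (h : G) : CycCoset G → ℝ := fun i =>
  (cycLog i.1 (i.2.out⁻¹ * h * (h⁻¹ • i.2).out) : ℝ) / orderOf i.1

theorem out_mem (h g : G) (q : G ⧸ Subgroup.zpowers g) :
    q.out⁻¹ * h * (h⁻¹ • q).out ∈ Subgroup.zpowers g := by
  rw [mul_assoc, ← QuotientGroup.eq, QuotientGroup.out_eq', ← smul_eq_mul,
    ← MulAction.Quotient.smul_coe, QuotientGroup.out_eq', smul_inv_smul]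

theorem cycShift_mul [Finite G] (h k : G) (i : CycCoset G) :
    CongrOne (cycShift k ((cycPerm h)⁻¹ i) + cycShift h i) (cycShift (h * k) i) := by
  obtain ⟨g, q⟩ := i
  show CongrOne (cycShift k ⟨g, h⁻¹ • q⟩ + cycShift h ⟨g, q⟩) (cycShift (h * k) ⟨g, q⟩)
  simp only [cycShift]
  rw [← add_div, ← Nat.cast_add]
  refine congrOne_div ?_
  rw [add_comm, pow_add, pow_cycLog (out_mem h g q), pow_cycLog (out_mem k g _),
    pow_cycLog (out_mem (h * k) g q)]
  have e : (h * k)⁻¹ • q = k⁻¹ • h⁻¹ • q := by rw [smul_smul, _root_.mul_inv_rev]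
  rw [e]
  group

theorem cycShift_one [Finite G] (i : CycCoset G) : CongrOne (cycShift (1 : G) i) 0 := by
  obtain ⟨z, hz⟩ := cycShift_mul (1 : G) 1 i
  rw [cycPerm_one, inv_one, Equiv.Perm.one_apply, mul_one] at hz
  exact ⟨z, by linarith⟩

variable [Finite G] (N : ℕ) (e : CycCoset G ≃ Fin N)

/-- The euclidean space. -/
local notation "E" => EuclideanSpace ℝ (Fin N)

/-- The linear action. -/
def cycRot : G →* (E ≃ₗᵢ[ℝ] E) where
  toFun h := LinearIsometryEquiv.piLpCongrLeft 2 ℝ ℝ (e.permCongr (cycPerm h))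
  map_one' := LinearIsometryEquiv.ext fun x => PiLp.ext fun i => by
    show x ((e.permCongr (cycPerm (1 : G))).symm i) = x i
    rw [cycPerm_one]
    show x (e (e.symm i)) = x i
    rw [e.apply_symm_apply]
  map_mul' h k := LinearIsometryEquiv.ext fun x => PiLp.ext fun i => by
    show x ((e.permCongr (cycPerm (h * k))).symm i) =
      x ((e.permCongr (cycPerm k)).symm ((e.permCongr (cycPerm h)).symm i))
    rw [cycPerm_mul]
    show x (e ((cycPerm k).symm ((cycPerm h).symm (e.symm i)))) =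
      x (e ((cycPerm k).symm (e.symm (e ((cycPerm h).symm (e.symm i))))))
    rw [e.symm_apply_apply]

theorem cycRot_apply (h : G) (x : E) (i : CycCoset G) :
    cycRot N e h x (e i) = x (e ((cycPerm h)⁻¹ i)) := by
  show x (e ((cycPerm h).symm (e.symm (e i)))) = _
  rw [e.symm_apply_apply]
  rfl

theorem cycRot_injective : Function.Injective (cycRot N e : G →* (E ≃ₗᵢ[ℝ] E)) := by
  classical
  refine (injective_iff_map_eq_one _).2 fun h hh => ?_
  by_contra hne
  obtain ⟨i, hi⟩ : ∃ i : CycCoset G, i = ⟨1, ((1 : G) : G ⧸ Subgroup.zpowers (1 : G))⟩ := ⟨_, rfl⟩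
  have h1 := congrArg (fun A : E ≃ₗᵢ[ℝ] E => A (EuclideanSpace.single (e i) 1) (e i)) hh
  simp only [cycRot_apply] at h1
  have h2 : (cycPerm h)⁻¹ i = i := by
    by_contra h3
    simp [PiLp.single_apply, e.injective.eq_iff, h3] at h1
    exact h3 h1
  rw [hi] at h2
  have h4 : (h⁻¹ : G) • ((1 : G) : G ⧸ Subgroup.zpowers (1 : G)) = ((1 : G) : G ⧸ _) :=
    eq_of_heq (Sigma.mk.inj h2).2
  rw [MulAction.Quotient.smul_mk, QuotientGroup.eq] at h4
  simp at h4
  exact hne h4

/-- The group. -/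
def flatGroup : Subgroup (E ≃ᵃⁱ[ℝ] E) where
  carrier := {γ | ∃ h : G, rotHom E γ = cycRot N e h ∧
    ∀ i, CongrOne (γ 0 (e i)) (cycShift h i)}
  one_mem' := ⟨1, by rw [map_one, map_one], fun i => (cycShift_one i).symm⟩
  mul_mem' := by
    rintro γ δ ⟨h, hr, hv⟩ ⟨k, hr', hv'⟩
    refine ⟨h * k, by rw [map_mul, hr, hr', map_mul], fun i => ?_⟩
    rw [mul_zero_apply, PiLp.add_apply, hr, cycRot_apply]
    exact ((hv' _).add (hv i)).trans (cycShift_mul h k i)
  inv_mem' := by
    rintro γ ⟨h, hr, hv⟩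
    refine ⟨h⁻¹, by rw [map_inv, hr, map_inv], fun i => ?_⟩
    rw [inv_zero_apply, PiLp.neg_apply, map_inv, hr, ← map_inv, cycRot_apply]
    have h1 := cycShift_mul h⁻¹ h i
    rw [inv_mul_cancel] at h1
    have h2 := cycShift_one (G := G) i
    obtain ⟨a, ha⟩ := hv ((cycPerm h⁻¹)⁻¹ i)
    obtain ⟨b, hb⟩ := h1.trans h2
    exact ⟨-a - b, by push_cast; linarith⟩

theorem exists_lift (h : G) :
    ∃ γ ∈ flatGroup N e, rotHom E γ = cycRot N e h := by
  refine ⟨shift (WithLp.toLp 2 fun j => cycShift h (e.symm j)) *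
    (cycRot N e h).toAffineIsometryEquiv, ⟨h, ?_, fun i => ⟨0, ?_⟩⟩, ?_⟩
  · rw [map_mul, rotHom_shift, one_mul]; rfl
  · rw [mul_zero_apply, rotHom_shift, shift_zero_apply]
    show ((cycRot N e h) 0 + WithLp.toLp 2 fun j => cycShift h (e.symm j)) (e i) - _ = _
    simp
  · rw [map_mul, rotHom_shift, one_mul]; rfl

theorem isCrystallographic_flatGroup : IsCrystallographic (flatGroup N e) := by
  classical
  refine ⟨fun R => ?_, ⟨Real.sqrt N, fun x => ?_⟩⟩
  · obtain ⟨B, hB⟩ := exists_nat_ge R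
    have hfinrot : (Set.range (cycRot N e)).Finite := Set.finite_range _
    refine Set.Finite.of_finite_image (f := fun γ => (rotHom E γ, fun i => ⌊γ 0 i⌋)) ?_ ?_
    · refine (hfinrot.prod
        (Set.Finite.pi fun _ : Fin N => Set.finite_Icc (-(B : ℤ) - 1) (B + 1))).subset ?_
      rintro _ ⟨γ, ⟨⟨h, hr, -⟩, hγR⟩, rfl⟩
      refine ⟨⟨h, hr.symm⟩, fun i _ => ?_⟩
      have h1 := abs_le.1 ((PiLp.norm_apply_le (γ 0) i).trans (hγR.trans hB))
      constructor
      · rw [Int.le_floor]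
        push_cast
        linarith
      · rw [← Int.lt_add_one_iff, Int.floor_lt]
        push_cast
        linarith
    · rintro γ ⟨⟨h, hr, hv⟩, -⟩ δ ⟨⟨k, hr', hv'⟩, -⟩ heq
      simp only [Prod.mk.injEq] at heq
      have hk : h = k := cycRot_injective N e (hr.symm.trans (heq.1.trans hr'))
      refine ext_parts heq.1 (PiLp.ext fun j => ?_)
      obtain ⟨i, rfl⟩ := e.surjective j
      obtain ⟨a, ha⟩ := (hv i).trans (hk ▸ (hv' i).symm)
      have h2 := congrFun heq.2 (e i)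
      rw [show γ 0 (e i) = δ 0 (e i) + (a : ℝ) by linarith, Int.floor_add_intCast] at h2
      have ha0 : a = 0 := by omega
      rw [ha0, Int.cast_zero] at ha
      linarith
  · obtain ⟨v, hv⟩ : ∃ v : E, v = WithLp.toLp 2 fun i => (⌊x i⌋ : ℝ) := ⟨_, rfl⟩
    refine ⟨shift v, ⟨1, by rw [rotHom_shift, map_one], fun i => ?_⟩, ?_⟩
    · obtain ⟨z, hz⟩ := cycShift_one (G := G) i
      refine ⟨⌊x (e i)⌋ - z, ?_⟩
      rw [shift_zero_apply, hv]
      show (⌊x (e i)⌋ : ℝ) - _ = _
      push_cast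
      linarith
    · rw [shift_zero_apply, EuclideanSpace.norm_eq]
      refine Real.sqrt_le_sqrt ?_
      refine (Finset.sum_le_card_nsmul _ _ 1 fun i _ => ?_).trans (by simp)
      rw [Real.norm_eq_abs, sq_abs, hv]
      have h1 := Int.floor_le (x i)
      have h2 := Int.lt_floor_add_one (x i)
      show ((⌊x i⌋ : ℝ) - x i) ^ 2 ≤ 1
      nlinarith

theorem torsionFree_flatGroup : IsTorsionFreeGroup (flatGroup N e) := by
  intro γ hγ k hk hpow
  obtain ⟨h, hr, hv⟩ := hγ
  -- the coordinates fixed by the rotation grow linearly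
  have hfix : ∀ i, (cycPerm h)⁻¹ i = i → γ 0 (e i) = 0 := by
    intro i hi
    have hstep : ∀ j : ℕ, (γ ^ j) 0 (e i) = j * γ 0 (e i) := by
      intro j
      induction j with
      | zero => simp
      | succ j ih =>
        rw [pow_succ', mul_zero_apply, PiLp.add_apply, hr, cycRot_apply, hi, ih]
        push_cast
        ring
    have h1 := hstep k
    rw [hpow, AffineIsometryEquiv.coe_one] at h1
    simpa [hk.ne'] using h1.symm
  by_cases h1 : h = 1
  · refine ext_parts (by rw [hr, h1, map_one, map_one]) (PiLp.ext fun j => ?_)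
    obtain ⟨i, rfl⟩ := e.surjective j
    rw [hfix i, AffineIsometryEquiv.coe_one]
    · simp
    · obtain ⟨g, q⟩ := i
      show (⟨g, h⁻¹ • q⟩ : CycCoset G) = ⟨g, q⟩
      rw [h1, inv_one, one_smul]
  exfalso
  obtain ⟨q, hq⟩ : ∃ q : G ⧸ Subgroup.zpowers h, q = ((1 : G) : G ⧸ Subgroup.zpowers h) := ⟨_, rfl⟩
  have hhq : h⁻¹ • q = q := by
    rw [hq, MulAction.Quotient.smul_mk, smul_eq_mul, mul_one, QuotientGroup.eq, inv_inv, mul_one]
    exact Subgroup.mem_zpowers h
  have hi : (cycPerm h)⁻¹ (⟨h, q⟩ : CycCoset G) = ⟨h, q⟩ := by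
    show (⟨h, h⁻¹ • q⟩ : CycCoset G) = ⟨h, q⟩
    rw [hhq]
  have hout : q.out ∈ Subgroup.zpowers h := by
    have h2 := QuotientGroup.out_eq' q
    conv_rhs at h2 => rw [hq]
    rw [QuotientGroup.eq, mul_one] at h2
    exact (Subgroup.inv_mem_iff _).1 h2
  have hval : CongrOne (cycShift h ⟨h, q⟩) ((1 : ℕ) / orderOf h) := by
    refine congrOne_div ?_
    rw [pow_cycLog (out_mem h h q), hhq, pow_one]
    obtain ⟨j, hj⟩ := hout
    rw [← hj]
    group
  obtain ⟨z, hz⟩ := ((hv ⟨h, q⟩).trans hval).symm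
  rw [hfix _ hi, sub_zero, Nat.cast_one, one_div] at hz
  have hord : (2 : ℝ) ≤ orderOf h := by
    have := (orderOf_pos h)
    have h2 : orderOf h ≠ 1 := fun h3 => h1 (orderOf_eq_one_iff.1 h3)
    exact_mod_cast (show 2 ≤ orderOf h by omega)
  have hlt : (z : ℝ) < 1 := by
    rw [← hz]
    exact inv_lt_one_of_one_lt₀ (by linarith)
  have hpos : (0 : ℝ) < z := by
    rw [← hz]
    positivity
  have : (0 : ℤ) < z := by exact_mod_cast hpos
  have : z < 1 := by exact_mod_cast hlt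
  omega

/-- **The theorem of Auslander and Kuranishi.** -/
theorem exists_flat (G : Type*) [Group G] [Finite G] :
    ∃ (N : ℕ) (Γ : Subgroup (EuclideanSpace ℝ (Fin N) ≃ᵃⁱ[ℝ] EuclideanSpace ℝ (Fin N))),
      IsCrystallographic Γ ∧ IsTorsionFreeGroup Γ ∧ ActsFreely Γ ∧
        Nonempty (G ≃* Γ.map (rotHom (EuclideanSpace ℝ (Fin N)))) := by
  haveI := Fintype.ofFinite (CycCoset G)
  obtain ⟨N, ⟨e⟩⟩ : ∃ N, Nonempty (CycCoset G ≃ Fin N) := ⟨_, ⟨Fintype.equivFin _⟩⟩
  refine ⟨N, flatGroup N e, isCrystallographic_flatGroup N e, torsionFree_flatGroup N e,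
    free_of_torsionFree (isCrystallographic_flatGroup N e) (torsionFree_flatGroup N e), ?_⟩
  have hrange : (cycRot N e).range = (flatGroup N e).map (rotHom _) := by
    ext A
    constructor
    · rintro ⟨h, rfl⟩
      obtain ⟨γ, hγ, hr⟩ := exists_lift N e h
      exact ⟨γ, hγ, hr⟩
    · rintro ⟨γ, ⟨h, hr, -⟩, rfl⟩
      exact ⟨h, hr.symm⟩
  exact ⟨(MonoidHom.ofInjective (cycRot_injective N e)).trans (MulEquiv.subgroupCongr hrange)⟩

end FA.Bieberbach

end
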