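import Fermat.Agent.Bieberbach.Finiteness
import Fermat.Agent.Bieberbach.Conjugation
import Fermat.Agent.Bieberbach.FreeAction
import Fermat.Agent.Root.SummaryCrystallographic

/-!
# The restriction on rotations, and flat manifolds

In integral coordinates a rotation part is an integral matrix of the same order.  Torsion-free
groups form finitely many classes under affine conjugation.
-/

set_option autoImplicit false

noncomputable section

open Module Matrix

namespace FA.Bieberbach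

variable {n : ℕ} {V : Type*} [NormedAddCommGroup V] [InnerProductSpace ℝ V] [FiniteDimensional ℝ V]
  {G : Subgroup (V ≃ᵃⁱ[ℝ] V)}

theorem exists_integral_of_order (hG : IsCrystallographic G) (hn : finrank ℝ V = n)
    {γ : V ≃ᵃⁱ[ℝ] V} (hγ : γ ∈ G) :
    0 < orderOf (rotHom V γ) ∧
      ∃ A : GL (Fin n) ℤ, orderOf A = orderOf (rotHom V γ) := by
  obtain ⟨F, hF⟩ := FA.Summary.jordan_finite_subgroups n
  obtain ⟨e, M, -, -, -, hint⟩ := exists_integral_coords hG hn hF
  refine ⟨?_, M ⟨γ, hγ⟩, orderOf_eq_orderOf_iff.2 fun k => ?_⟩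
  · haveI := finite_pointGroup hG
    exact Subgroup.orderOf_coe (⟨_, ⟨γ, hγ⟩, rfl⟩ : (pointHom G).range) ▸ orderOf_pos _
  · rw [← map_pow, ← map_pow]
    constructor
    · intro h
      refine LinearIsometryEquiv.ext fun v => e.injective ?_
      rw [show γ ^ k = ((⟨γ, hγ⟩ : G) ^ k : G).1 from rfl, hint, h, realMat_one, one_mulVec]
      rfl
    · intro h
      refine Units.ext (Matrix.ext fun i j => ?_)
      have h1 := hint ((⟨γ, hγ⟩ : G) ^ k) (e.symm (Pi.single j 1))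
      rw [show (((⟨γ, hγ⟩ : G) ^ k : G) : V ≃ᵃⁱ[ℝ] V) = γ ^ k from rfl, h,
        e.apply_symm_apply] at h1
      have h2 := congrFun ((e.apply_symm_apply (Pi.single j 1)).symm.trans h1) i
      simp only [realMat, RingHom.mapMatrix_apply, mulVec_single, Matrix.col_apply,
        Matrix.map_apply, MulOpposite.op_one, one_smul, Int.coe_castRingHom] at h2
      rw [Units.val_one, Matrix.one_apply]
      rcases eq_or_ne i j with rfl | hij
      · rw [if_pos rfl]
        rw [Pi.single_eq_same] at h2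
        exact_mod_cast h2.symm
      · rw [if_neg hij]
        rw [Pi.single_eq_of_ne hij] at h2
        exact_mod_cast h2.symm

/-- **Finitely many flat classes.** -/
theorem exists_flat_classes (hn : finrank ℝ V = n) :
    ∃ F : Set (Subgroup (V ≃ᵃⁱ[ℝ] V)), F.Finite ∧
      (∀ G ∈ F, IsCrystallographic (V := V) G ∧ IsTorsionFreeGroup (V := V) G) ∧
      ∀ G : Subgroup (V ≃ᵃⁱ[ℝ] V), IsCrystallographic G → IsTorsionFreeGroup G →
        ∃ G' ∈ F, ∃ f : V ≃ᵃ[ℝ] V,
          ∀ δ, δ ∈ G' ↔ ∃ γ ∈ G, ∀ x, δ (f x) = f (γ x) := by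
  obtain ⟨F, hfin, hcr, hF⟩ := exists_finite_classes (V := V) hn
  refine ⟨{G ∈ F | IsTorsionFreeGroup G}, hfin.subset fun G hG => hG.1,
    fun G hG => ⟨hcr G hG.1, hG.2⟩, fun G hG hGt => ?_⟩
  obtain ⟨G', hG', ⟨φ⟩⟩ := hF G hG
  obtain ⟨f, hf⟩ := exists_affine_conj hG (hcr G' hG') φ
  refine ⟨G', ⟨hG', fun δ hδ k hk hpow => ?_⟩, f, fun δ => ⟨fun hδ => ?_, ?_⟩⟩
  · have h1 : (φ.symm ⟨δ, hδ⟩) ^ k = 1 := by
      rw [← map_pow, show (⟨δ, hδ⟩ : G') ^ k = 1 from Subtype.ext hpow, map_one]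
    have h2 : φ.symm ⟨δ, hδ⟩ = 1 :=
      Subtype.ext (hGt _ (φ.symm ⟨δ, hδ⟩).2 k hk (congrArg Subtype.val h1))
    have h3 := congrArg φ h2
    rw [MulEquiv.apply_symm_apply, map_one] at h3
    exact congrArg Subtype.val h3
  · refine ⟨_, (φ.symm ⟨δ, hδ⟩).2, fun x => ?_⟩
    have h := hf (φ.symm ⟨δ, hδ⟩) x
    rwa [MulEquiv.apply_symm_apply] at h
  · rintro ⟨γ, hγ, h⟩
    have e : δ = (φ ⟨γ, hγ⟩).1 := AffineIsometryEquiv.ext fun y => by
      obtain ⟨x, rfl⟩ := f.surjective y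
      rw [h, hf]
    exact e ▸ (φ ⟨γ, hγ⟩).2

end FA.Bieberbach

end
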