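import Fermat.Agent.Bieberbach.Basic
import Mathlib.Analysis.Normed.Module.FiniteDimension
import Mathlib.Algebra.QuadraticDiscriminant

/-!
# Small rotations are trivial

Buser's proof: by pigeonhole a crystallographic group has elements with nearly trivial rotation in
every direction; a shortest element with rotation `A ≠ 1` within `1 / 2` of the identity is
contradicted by its commutator with the shortest element pointing along the space most moved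
by `A`.
-/

set_option autoImplicit false

noncomputable section

open scoped RealInnerProductSpace
open Filter Topology Set

namespace FA.Bieberbach

variable {V : Type*} [NormedAddCommGroup V] [InnerProductSpace ℝ V] [FiniteDimensional ℝ V]
  {G : Subgroup (V ≃ᵃⁱ[ℝ] V)}

/-- **Elements in every direction.** -/
theorem exists_direction (hG : IsCrystallographic G) {u : V} (hu : ‖u‖ = 1) {ε : ℝ} (hε : 0 < ε) :
    ∃ β ∈ G, NearId ε β ∧ β 0 ≠ 0 ∧ ‖β 0 - ‖β 0‖ • u‖ ≤ ε * ‖β 0‖ := by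
  obtain ⟨R, hR⟩ := hG.2
  choose γ hγG hγ using fun k : ℕ => hR ((k : ℝ) • u)
  obtain ⟨op, hop⟩ : ∃ op : ℕ → (V →L[ℝ] V), op = fun k =>
      (rotHom V (γ k)).toLinearIsometry.toContinuousLinearMap := ⟨_, rfl⟩
  have hball : ∀ k, op k ∈ Metric.closedBall (0 : V →L[ℝ] V) 1 := fun k => by
    rw [mem_closedBall_zero_iff, hop]
    exact LinearIsometry.norm_toContinuousLinearMap_le _
  haveI : ProperSpace (V →L[ℝ] V) := FiniteDimensional.proper ℝ _
  obtain ⟨L, -, φ, hφ, hlim⟩ := (isCompact_closedBall _ _).tendsto_subseq hball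
  obtain ⟨J, hJ⟩ := Metric.cauchySeq_iff'.1 hlim.cauchySeq ε hε
  obtain ⟨C, hC⟩ : ∃ C : ℝ, C = R + ‖γ (φ J) 0‖ := ⟨_, rfl⟩
  obtain ⟨i, hi⟩ := exists_nat_gt (C + 2 * C / ε + J)
  have hR0 : 0 ≤ R := (norm_nonneg _).trans (hγ 0)
  have hC0 : 0 ≤ C := by rw [hC]; positivity
  have hdiv : 0 ≤ 2 * C / ε := by positivity
  have hiJ : J ≤ i := Nat.cast_le.1 (show (J : ℝ) ≤ i by linarith)
  have hφi : (i : ℝ) ≤ φ i := Nat.cast_le.2 hφ.le_apply
  refine ⟨γ (φ i) * (γ (φ J))⁻¹, G.mul_mem (hγG _) (G.inv_mem (hγG _)), fun x => ?_, ?_⟩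
  · obtain ⟨y, hy⟩ : ∃ y, y = rotHom V (γ (φ J))⁻¹ x := ⟨_, rfl⟩
    have hxy : rotHom V (γ (φ J)) y = x := hy ▸ rot_inv_apply _ _
    rw [rot_mul_apply, ← hy]
    rw [show ‖x‖ = ‖y‖ by rw [← hxy, LinearIsometryEquiv.norm_map]]
    conv_lhs => rw [← hxy]
    have e : rotHom V (γ (φ i)) y - rotHom V (γ (φ J)) y = (op (φ i) - op (φ J)) y := by
      rw [hop]; rfl
    rw [e]
    refine (ContinuousLinearMap.le_opNorm _ _).trans
      (mul_le_mul_of_nonneg_right ?_ (norm_nonneg _))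
    rw [← dist_eq_norm]
    exact (hJ i hiJ).le
  · obtain ⟨b, hb⟩ : ∃ b, b = (γ (φ i) * (γ (φ J))⁻¹) 0 := ⟨_, rfl⟩
    rw [← hb]
    have hbd : ‖b - (φ i : ℝ) • u‖ ≤ C := by
      rw [hb, mul_zero_apply, add_sub_assoc, hC, add_comm R]
      refine (norm_add_le _ _).trans (add_le_add (le_of_eq ?_) (hγ _))
      rw [LinearIsometryEquiv.norm_map, inv_zero_apply, norm_neg, LinearIsometryEquiv.norm_map]
    have hnorm : |‖b‖ - (φ i : ℝ)| ≤ C := by
      refine le_trans ?_ hbd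
      refine le_trans (le_of_eq ?_) (abs_norm_sub_norm_le b ((φ i : ℝ) • u))
      rw [norm_smul, hu, mul_one, Real.norm_natCast]
    obtain ⟨h1, h2⟩ := abs_le.1 hnorm
    have hb0 : 0 < ‖b‖ := by linarith
    refine ⟨norm_pos_iff.1 hb0, ?_⟩
    have e : b - ‖b‖ • u = (b - (φ i : ℝ) • u) + ((φ i : ℝ) - ‖b‖) • u := by
      rw [sub_smul]; abel
    rw [e]
    refine (norm_add_le _ _).trans ?_
    rw [norm_smul, hu, mul_one, Real.norm_eq_abs, abs_sub_comm]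
    refine (add_le_add hbd hnorm).trans ?_
    have h3 : 2 * C / ε ≤ ‖b‖ := by linarith
    rw [div_le_iff₀ hε] at h3
    linarith

/-- The space most moved by an isometry. -/
def maxSpace (A : V ≃ₗᵢ[ℝ] V) (m : ℝ) : Submodule ℝ V where
  carrier := {x | ∀ y, ⟪A x - x, A y - y⟫ = m ^ 2 * ⟪x, y⟫}
  add_mem' {x x'} hx hx' y := by
    rw [map_add, add_sub_add_comm, inner_add_left, inner_add_left, hx y, hx' y, mul_add]
  zero_mem' y := by simp
  smul_mem' c x hx y := by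
    rw [map_smul, ← smul_sub, real_inner_smul_left, real_inner_smul_left, hx y]
    ring

omit [FiniteDimensional ℝ V] in
theorem maxSpace_map {A : V ≃ₗᵢ[ℝ] V} {m : ℝ} {x : V} (hx : x ∈ maxSpace A m) :
    A x ∈ maxSpace A m := fun y => by
  obtain ⟨z, rfl⟩ := A.surjective y
  rw [← map_sub, ← map_sub, A.inner_map_map, A.inner_map_map, hx z]

omit [FiniteDimensional ℝ V] in
theorem maxSpace_symm {A : V ≃ₗᵢ[ℝ] V} {m : ℝ} {x : V} (hx : x ∈ maxSpace A m) :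
    A.symm x ∈ maxSpace A m := fun y => by
  have h := hx (A y)
  rw [← A.inner_map_map, map_sub, map_sub, A.apply_symm_apply, h, ← A.inner_map_map (A.symm x) y,
    A.apply_symm_apply]

omit [FiniteDimensional ℝ V] in
theorem maxSpace_orth {A : V ≃ₗᵢ[ℝ] V} {m : ℝ} {x : V} (hx : x ∈ (maxSpace A m)ᗮ) :
    A x - x ∈ (maxSpace A m)ᗮ := by
  refine sub_mem ?_ hx
  rw [Submodule.mem_orthogonal]
  intro y hy
  rw [← A.apply_symm_apply y, A.inner_map_map]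
  exact Submodule.inner_right_of_mem_orthogonal (maxSpace_symm hy) hx

omit [FiniteDimensional ℝ V] in
theorem mem_maxSpace_of_norm {A : V ≃ₗᵢ[ℝ] V} {m : ℝ} (hbd : ∀ x, ‖A x - x‖ ≤ m * ‖x‖)
    {x : V} (hx : ‖A x - x‖ = m * ‖x‖) : x ∈ maxSpace A m := fun y => by
  have hq : ∀ t : ℝ, 0 ≤ (m ^ 2 * ‖y‖ ^ 2 - ‖A y - y‖ ^ 2) * (t * t) +
      2 * (m ^ 2 * ⟪x, y⟫ - ⟪A x - x, A y - y⟫) * t + 0 := fun t => by
    have h := pow_le_pow_left₀ (norm_nonneg _) (hbd (x + t • y)) 2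
    rw [map_add, map_smul, add_sub_add_comm, ← smul_sub, mul_pow, norm_add_sq_real,
      norm_add_sq_real, hx, real_inner_smul_right, real_inner_smul_right, norm_smul, norm_smul] at h
    simp only [mul_pow, Real.norm_eq_abs, sq_abs] at h
    linarith
  have h := discrim_le_zero hq
  rw [discrim, mul_zero, sub_zero] at h
  nlinarith [sq_nonneg (m ^ 2 * ⟪x, y⟫ - ⟪A x - x, A y - y⟫),
    sq_eq_zero_iff.1 (le_antisymm h (sq_nonneg _))]

theorem exists_max_moved (A : V ≃ₗᵢ[ℝ] V) (hA : A ≠ 1) :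
    ∃ m m' : ℝ, 0 ≤ m' ∧ m' < m ∧ (∀ x, ‖A x - x‖ ≤ m * ‖x‖) ∧
      (∃ u, ‖u‖ = 1 ∧ ‖A u - u‖ = m ∧ u ∈ maxSpace A m) ∧
      ∀ x ∈ (maxSpace A m)ᗮ, ‖A x - x‖ ≤ m' * ‖x‖ := by
  have hcont : Continuous fun x => ‖A x - x‖ := by fun_prop
  obtain ⟨z, hz⟩ : ∃ z, A z ≠ z := by
    by_contra! h
    exact hA (LinearIsometryEquiv.ext h)
  have hz0 : z ≠ 0 := fun h => hz (by rw [h, map_zero])
  obtain ⟨u, hu, humax⟩ := (isCompact_sphere (0 : V) 1).exists_isMaxOn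
    ⟨‖z‖⁻¹ • z, by simp [norm_smul, hz0]⟩ hcont.continuousOn
  rw [mem_sphere_zero_iff_norm] at hu
  obtain ⟨m, hm⟩ : ∃ m, m = ‖A u - u‖ := ⟨_, rfl⟩
  have hscale : ∀ (x : V) (c : ℝ), x ≠ 0 → ‖A (‖x‖⁻¹ • x) - ‖x‖⁻¹ • x‖ ≤ c →
      ‖A x - x‖ ≤ c * ‖x‖ := fun x c hx h => by
    rw [map_smul, ← smul_sub, norm_smul, norm_inv, norm_norm,
      inv_mul_le_iff₀ (norm_pos_iff.2 hx)] at h
    linarith
  have hbd : ∀ x, ‖A x - x‖ ≤ m * ‖x‖ := fun x => by
    rcases eq_or_ne x 0 with rfl | hx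
    · simp
    refine hscale x m hx ?_
    rw [hm]
    exact humax (by simp [norm_smul, hx])
  have hmpos : 0 < m := by
    have h1 := (norm_pos_iff.2 (sub_ne_zero.2 hz)).trans_le (hbd z)
    exact (pos_and_pos_or_neg_and_neg_of_mul_pos h1).resolve_right
      (fun h => not_lt.2 (norm_nonneg z) h.2) |>.1
  have huE : u ∈ maxSpace A m := mem_maxSpace_of_norm hbd (by rw [hu, mul_one, hm])
  have hclosed : IsCompact (Metric.sphere (0 : V) 1 ∩ ((maxSpace A m)ᗮ : Set V)) :=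
    (isCompact_sphere _ _).inter_right (Submodule.isClosed_orthogonal _)
  rcases (Metric.sphere (0 : V) 1 ∩ ((maxSpace A m)ᗮ : Set V)).eq_empty_or_nonempty with he | hne
  · refine ⟨m, 0, le_rfl, hmpos, hbd, ⟨u, hu, hm.symm, huE⟩, fun x hx => ?_⟩
    rcases eq_or_ne x 0 with rfl | hx0
    · simp
    refine absurd he (Set.Nonempty.ne_empty ⟨‖x‖⁻¹ • x, by simp [norm_smul, hx0], ?_⟩)
    exact Submodule.smul_mem _ _ hx
  obtain ⟨w, hw, hwmax⟩ := hclosed.exists_isMaxOn hne hcont.continuousOn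
  refine ⟨m, ‖A w - w‖, norm_nonneg _, lt_of_le_of_ne ?_ ?_, hbd, ⟨u, hu, hm.symm, huE⟩,
    fun x hx => ?_⟩
  · simpa [mem_sphere_zero_iff_norm.1 hw.1] using hbd w
  · intro h
    have hwE : w ∈ maxSpace A m :=
      mem_maxSpace_of_norm hbd (by rw [h, mem_sphere_zero_iff_norm.1 hw.1, mul_one])
    have hw0 : w = 0 := by
      rw [← inner_self_eq_zero (𝕜 := ℝ)]
      exact Submodule.inner_right_of_mem_orthogonal hwE hw.2
    simpa [hw0] using hw.1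
  · rcases eq_or_ne x 0 with rfl | hx0
    · simp
    exact hscale x _ hx0 (hwmax ⟨by simp [norm_smul, hx0], Submodule.smul_mem _ _ hx⟩)

/-- **Buser's lemma.** -/
theorem eq_one_of_nearId (hG : IsCrystallographic G) {γ : V ≃ᵃⁱ[ℝ] V} (hγ : γ ∈ G)
    (hn : NearId (1 / 2) γ) : rotHom V γ = 1 := by
  classical
  by_contra hne
  obtain ⟨S0, hS0⟩ : ∃ S0 : Set (V ≃ᵃⁱ[ℝ] V),
      S0 = {γ | γ ∈ G ∧ NearId (1 / 2) γ ∧ rotHom V γ ≠ 1} := ⟨_, rfl⟩
  have hmin : ∀ S : Set (V ≃ᵃⁱ[ℝ] V), (∀ g ∈ S, g ∈ G) → S.Nonempty →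
      ∃ g ∈ S, ∀ g' ∈ S, ‖g 0‖ ≤ ‖g' 0‖ := by
    rintro S hS ⟨g₀, hg₀⟩
    obtain ⟨g, hg, hle⟩ := Set.exists_min_image (S ∩ {g | ‖g 0‖ ≤ ‖g₀ 0‖}) (fun g => ‖g 0‖)
      ((hG.1 ‖g₀ 0‖).subset fun g hg => ⟨hS g hg.1, hg.2⟩) ⟨g₀, hg₀, le_refl ‖g₀ 0‖⟩
    refine ⟨g, hg.1, fun g' hg' => ?_⟩
    rcases le_total ‖g' 0‖ ‖g₀ 0‖ with h | h
    · exact hle g' ⟨hg', h⟩
    · exact le_trans hg.2 h
  obtain ⟨α, hα, hαmin⟩ := hmin S0 (fun g hg => (hS0 ▸ hg).1)
    ⟨γ, hS0 ▸ ⟨hγ, hn, hne⟩⟩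
  rw [hS0] at hα
  obtain ⟨hαG, hαn, hαne⟩ := hα
  obtain ⟨A, hA⟩ : ∃ A, A = rotHom V α := ⟨_, rfl⟩
  obtain ⟨m, m', hm'0, hm'm, hbd, ⟨u, hu, hum, huE⟩, hperp⟩ := exists_max_moved A (hA ▸ hαne)
  have hm0 : 0 < m := hm'0.trans_lt hm'm
  have hmhalf : m ≤ 1 / 2 := by
    have h := hαn u
    rwa [← hA, hum, hu, mul_one] at h
  obtain ⟨E, hE⟩ : ∃ E : Submodule ℝ V, E = maxSpace A m := ⟨_, rfl⟩
  obtain ⟨δ, hδ⟩ : ∃ δ : ℝ, δ = (m - m') / 8 := ⟨_, rfl⟩
  have hδ0 : 0 < δ := by rw [hδ]; linarith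
  obtain ⟨Sb, hSb⟩ : ∃ Sb : Set (V ≃ᵃⁱ[ℝ] V), Sb = {g | g ∈ G ∧ NearId δ g ∧ g 0 ≠ 0 ∧
      ‖g 0 - E.starProjection (g 0)‖ ≤ ‖E.starProjection (g 0)‖} := ⟨_, rfl⟩
  have hSbne : Sb.Nonempty := by
    obtain ⟨β, hβG, hβn, hβ0, hβu⟩ := exists_direction hG hu hδ0
    refine ⟨β, hSb ▸ ⟨hβG, hβn, hβ0, ?_⟩⟩
    have h1 : ‖β 0 - E.starProjection (β 0)‖ ≤ δ * ‖β 0‖ := by
      rw [E.starProjection_minimal]
      refine le_trans ?_ hβu
      exact ciInf_le ⟨0, by rintro _ ⟨y, rfl⟩; exact norm_nonneg _⟩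
        (⟨‖β 0‖ • u, E.smul_mem _ (hE ▸ huE)⟩ : E)
    have h2 := norm_le_norm_sub_add (β 0) (E.starProjection (β 0))
    nlinarith [norm_nonneg (β 0)]
  obtain ⟨β, hβ, hβmin⟩ := hmin Sb (fun g hg => (hSb ▸ hg).1) hSbne
  rw [hSb] at hβ
  obtain ⟨hβG, hβn, hβ0, hβE⟩ := hβ
  obtain ⟨B, hB⟩ : ∃ B, B = rotHom V β := ⟨_, rfl⟩
  obtain ⟨C, hC⟩ : ∃ C, C = α * β * (β * α)⁻¹ := ⟨_, rfl⟩
  have hrC : ∀ y, rotHom V C (B (A y)) = A (B y) := fun y => by
    rw [hC, hA, hB, rot_mul_apply, rot_mul_apply, ← rot_mul_apply β α, rot_inv_apply']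
  have hBn : ∀ x, ‖B x - x‖ ≤ δ * ‖x‖ := fun x => hB ▸ hβn x
  have hCn : NearId (2 * m * δ) C := fun x => by
    obtain ⟨y, hy⟩ : ∃ y, B (A y) = x := ⟨A.symm (B.symm x), by simp⟩
    rw [← hy, hrC, LinearIsometryEquiv.norm_map, LinearIsometryEquiv.norm_map]
    have e : A (B y) - B (A y) =
        (A (B y - y) - (B y - y)) - (B (A y - y) - (A y - y)) := by
      rw [map_sub, map_sub]; abel
    rw [e]
    refine (norm_sub_le _ _).trans (le_of_le_of_eq (add_le_add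
      ((hbd _).trans (mul_le_mul_of_nonneg_left (hBn y) hm0.le))
      ((hBn _).trans (mul_le_mul_of_nonneg_left (hbd y) hδ0.le))) ?_)
    ring
  have hCδ : NearId δ C := fun x => (hCn x).trans (mul_le_mul_of_nonneg_right
    (by nlinarith) (norm_nonneg x))
  obtain ⟨b, hb⟩ : ∃ b, b = β 0 := ⟨_, rfl⟩
  obtain ⟨a, ha⟩ : ∃ a, a = α 0 := ⟨_, rfl⟩
  have hC0 : C 0 + rotHom V C (B a + b) = A b + a := by
    have h1 := mul_zero_apply C (β * α)
    rw [hC, inv_mul_cancel_right, mul_zero_apply, mul_zero_apply, ← hA, ← hB, ← ha, ← hb, ← hC]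
      at h1
    rw [h1, add_comm]
  obtain ⟨r, hr⟩ : ∃ r, r = C 0 - (A b - b) := ⟨_, rfl⟩
  have hbpos : 0 < ‖b‖ := norm_pos_iff.2 (hb ▸ hβ0)
  have hrle : ‖r‖ ≤ 2 * δ * ‖b‖ := by
    have e : r = (b - rotHom V C b) + (a - A (B (A.symm a))) := by
      rw [hr, eq_sub_of_add_eq hC0, map_add,
        show rotHom V C (B a) = A (B (A.symm a)) by
          rw [← hrC (A.symm a), A.apply_symm_apply]]
      abel
    by_cases hB1 : B = 1
    · have hC1 : ∀ x, rotHom V C x = x := fun x => by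
        simpa [hB1] using hrC (A.symm x)
      rw [e, hC1, hB1]
      simp only [LinearIsometryEquiv.coe_one, id, A.apply_symm_apply, sub_self, add_zero, norm_zero]
      positivity
    · have hab : ‖a‖ ≤ ‖b‖ := by
        rw [ha, hb]
        refine hαmin β (hS0 ▸ ⟨hβG, fun x => (hβn x).trans
          (mul_le_mul_of_nonneg_right ?_ (norm_nonneg x)), hB ▸ hB1⟩)
        linarith
      rw [e]
      refine (norm_add_le _ _).trans ?_
      have h1 : ‖b - rotHom V C b‖ ≤ δ * ‖b‖ := norm_sub_rev b _ ▸ hCδ b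
      have h2 : ‖a - A (B (A.symm a))‖ ≤ δ * ‖a‖ := by
        conv_lhs => arg 1; arg 1; rw [← A.apply_symm_apply a]
        rw [← map_sub, LinearIsometryEquiv.norm_map, norm_sub_rev]
        refine (hBn _).trans_eq ?_
        rw [LinearIsometryEquiv.norm_map]
      nlinarith
  -- the commutator is shorter and points along `E` as well
  obtain ⟨p, hp⟩ : ∃ p, p = E.starProjection b := ⟨_, rfl⟩
  have hpE : p ∈ E := hp ▸ E.starProjection_apply_mem b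
  have hqE : b - p ∈ Eᗮ := hp ▸ E.sub_starProjection_mem_orthogonal b
  have hSp : A p - p ∈ E := sub_mem (hE ▸ maxSpace_map (hE ▸ hpE)) hpE
  have hSq : A (b - p) - (b - p) ∈ Eᗮ := hE ▸ maxSpace_orth (hE ▸ hqE)
  have hnp : ‖A p - p‖ = m * ‖p‖ := by
    have h := (hE ▸ hpE : p ∈ maxSpace A m) p
    rw [real_inner_self_eq_norm_sq, real_inner_self_eq_norm_sq, ← mul_pow] at h
    exact (pow_left_inj₀ (norm_nonneg _) (by positivity) two_ne_zero).1 h
  have hCval : C 0 = ((A p - p) + E.starProjection r) +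
      ((A (b - p) - (b - p)) + (r - E.starProjection r)) := by
    rw [hr, map_sub A b p]; abel
  have hproj : E.starProjection (C 0) = (A p - p) + E.starProjection r :=
    E.eq_starProjection_of_mem_orthogonal' (add_mem hSp (E.starProjection_apply_mem r))
      (add_mem hSq (E.sub_starProjection_mem_orthogonal r)) hCval
  have hrest : C 0 - E.starProjection (C 0) =
      (A (b - p) - (b - p)) + (r - E.starProjection r) := by
    rw [hproj]; nth_rewrite 1 [hCval]; abel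
  have hrp : ‖E.starProjection r‖ ≤ ‖r‖ := E.norm_starProjection_apply_le r
  have hrq : ‖r - E.starProjection r‖ ≤ ‖r‖ := by
    rw [← E.starProjection_orthogonal_val]
    exact Eᗮ.norm_starProjection_apply_le r
  have hqp : ‖b - p‖ ≤ ‖p‖ := by rw [hp, hb]; exact hβE
  have hbp : ‖b‖ ≤ 2 * ‖p‖ := by
    linarith [norm_le_norm_sub_add b p]
  have hlow : (m + m') / 2 * ‖p‖ ≤ ‖E.starProjection (C 0)‖ := by
    rw [hproj]
    have h := norm_sub_norm_le (A p - p) (-E.starProjection r)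
    rw [sub_neg_eq_add, norm_neg, hnp] at h
    nlinarith
  have hup : ‖C 0 - E.starProjection (C 0)‖ ≤ (m + m') / 2 * ‖p‖ := by
    rw [hrest]
    refine (norm_add_le _ _).trans ?_
    have h := hperp _ (hE ▸ hqE)
    nlinarith
  have hppos : 0 < ‖p‖ := by linarith
  refine not_lt.2 (hβmin C (hSb ▸ ⟨?_, hCδ, fun h0 => ?_, hup.trans hlow⟩)) ?_
  · rw [hC]
    exact G.mul_mem (G.mul_mem hαG hβG) (G.inv_mem (G.mul_mem hβG hαG))
  · rw [h0, map_zero, norm_zero] at hlow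
    nlinarith
  · rw [← hb, show C 0 = (A b - b) + r by rw [hr]; abel]
    refine (norm_add_le _ _).trans_lt ?_
    have h := hbd b
    nlinarith

end FA.Bieberbach

end
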