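import Fermat.Agent.Bieberbach.Rotations
import Mathlib.Algebra.Module.ZLattice.Basic
import Mathlib.GroupTheory.Index

/-!
# The lattice of translations

The point group of a crystallographic group is finite, so the translations have finite index and
span; every abelian normal subgroup consists of translations.
-/

set_option autoImplicit false

noncomputable section

open scoped RealInnerProductSpace
open Filter Topology Set

namespace FA.Bieberbach

variable {V : Type*} [NormedAddCommGroup V] [InnerProductSpace ℝ V]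
  {G : Subgroup (V ≃ᵃⁱ[ℝ] V)}

/-- The vectors of the translations. -/
def transLattice (G : Subgroup (V ≃ᵃⁱ[ℝ] V)) : Submodule ℤ V :=
  AddSubgroup.toIntSubmodule
    { carrier := {v | shift v ∈ G}
      zero_mem' := show shift (0 : V) ∈ G from shift_zero (V := V) ▸ G.one_mem
      add_mem' := fun {v w} hv hw => show shift (v + w) ∈ G from shift_add v w ▸ G.mul_mem hv hw
      neg_mem' := fun {v} hv => show shift (-v) ∈ G from shift_neg v ▸ G.inv_mem hv }

theorem mem_transLattice {v : V} : v ∈ transLattice G ↔ shift v ∈ G := Iff.rfl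

theorem apply_zero_mem_transLattice {γ : V ≃ᵃⁱ[ℝ] V} (hγ : γ ∈ G) (h : rotHom V γ = 1) :
    γ 0 ∈ transLattice G :=
  mem_transLattice.2 (eq_shift h ▸ hγ)

theorem rot_mem_transLattice {γ : V ≃ᵃⁱ[ℝ] V} (hγ : γ ∈ G) {v : V} (hv : v ∈ transLattice G) :
    rotHom V γ v ∈ transLattice G := by
  rw [mem_transLattice, ← conj_shift]
  exact G.mul_mem (G.mul_mem hγ hv) (G.inv_mem hγ)

/-- The linear parts as a homomorphism of the group. -/
def pointHom (G : Subgroup (V ≃ᵃⁱ[ℝ] V)) : G →* (V ≃ₗᵢ[ℝ] V) := (rotHom V).comp G.subtype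

theorem mem_ker_pointHom {γ : G} : γ ∈ (pointHom G).ker ↔ rotHom V γ.1 = 1 := Iff.rfl

theorem finite_inter_lattice (hG : IsCrystallographic G) (R : ℝ) :
    {v | v ∈ transLattice G ∧ ‖v‖ ≤ R}.Finite := by
  refine ((hG.1 R).image fun γ => γ 0).subset fun v hv => ⟨shift v, ⟨hv.1, ?_⟩, shift_zero_apply v⟩
  rw [shift_zero_apply]
  exact hv.2

theorem discreteTopology_transLattice (hG : IsCrystallographic G) :
    DiscreteTopology (transLattice G) := by
  rw [discreteTopology_iff_isOpen_singleton_zero]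
  obtain ⟨F, hF⟩ : ∃ F : Set (transLattice G),
      F = {v : transLattice G | ‖(v : V)‖ ≤ 1 ∧ v ≠ 0} := ⟨_, rfl⟩
  have hfin : F.Finite := by
    refine Set.Finite.of_finite_image ((finite_inter_lattice hG 1).subset ?_)
      Subtype.val_injective.injOn
    rintro _ ⟨v, hv, rfl⟩
    exact ⟨v.2, (hF ▸ hv).1⟩
  have e : ({0} : Set (transLattice G)) = {v : transLattice G | ‖(v : V)‖ < 1} ∩ Fᶜ := by
    ext v
    refine ⟨fun h => ?_, fun ⟨h1, h2⟩ => by_contra fun h => h2 (hF ▸ ⟨h1.le, h⟩)⟩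
    rw [Set.mem_singleton_iff.1 h]
    exact ⟨by simp, fun h0 => (hF ▸ h0).2 rfl⟩
  rw [e]
  exact (isOpen_lt (by fun_prop) continuous_const).inter hfin.isClosed.isOpen_compl

variable [FiniteDimensional ℝ V]

/-- **The point group is finite.** -/
theorem finite_pointGroup (hG : IsCrystallographic G) : Finite (pointHom G).range := by
  classical
  obtain ⟨op, hop⟩ : ∃ op : (V ≃ₗᵢ[ℝ] V) → (V →L[ℝ] V), op = fun A =>
      A.toLinearIsometry.toContinuousLinearMap := ⟨_, rfl⟩
  haveI : ProperSpace (V →L[ℝ] V) := FiniteDimensional.proper ℝ _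
  obtain ⟨t, -, htfin, htcover⟩ := finite_cover_balls_of_compact
    (isCompact_closedBall (0 : V →L[ℝ] V) 1) (show (0 : ℝ) < 1 / 4 by norm_num)
  have hball : ∀ A, op A ∈ Metric.closedBall (0 : V →L[ℝ] V) 1 := fun A => by
    rw [mem_closedBall_zero_iff, hop]
    exact LinearIsometry.norm_toContinuousLinearMap_le _
  choose c hct hc using fun A => mem_iUnion₂.1 (htcover (hball A))
  haveI := htfin.to_subtype
  refine Finite.of_injective (fun A : (pointHom G).range => (⟨c A.1, hct A.1⟩ : t)) fun A B h => ?_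
  obtain ⟨γ, hγ⟩ := A.2
  obtain ⟨δ, hδ⟩ := B.2
  have hd : ‖op A.1 - op B.1‖ ≤ 1 / 2 := by
    rw [← dist_eq_norm]
    have h1 := Metric.mem_ball.1 (hc A.1)
    have h2 := Metric.mem_ball.1 (hc B.1)
    rw [show c A.1 = c B.1 from congrArg Subtype.val h] at h1
    linarith [dist_triangle_right (op A.1) (op B.1) (c B.1)]
  have hn : NearId (1 / 2) (γ.1 * δ.1⁻¹) := fun x => by
    obtain ⟨y, rfl⟩ : ∃ y, rotHom V δ.1 y = x := (rotHom V δ.1).surjective x
    rw [rot_mul_apply, rot_inv_apply', LinearIsometryEquiv.norm_map]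
    refine le_of_eq_of_le ?_ ((ContinuousLinearMap.le_opNorm (op A.1 - op B.1) y).trans
      (mul_le_mul_of_nonneg_right hd (norm_nonneg _)))
    rw [← hγ, ← hδ, hop]
    rfl
  have h1 := eq_one_of_nearId hG (G.mul_mem γ.2 (G.inv_mem δ.2)) hn
  rw [map_mul, map_inv, mul_inv_eq_one] at h1
  exact Subtype.ext (hγ ▸ hδ ▸ h1)

/-- **The translations have finite index.** -/
theorem finiteIndex_ker (hG : IsCrystallographic G) : (pointHom G).ker.FiniteIndex := by
  haveI := finite_pointGroup hG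
  haveI : Finite (G ⧸ (pointHom G).ker) :=
    Finite.of_equiv _ (QuotientGroup.quotientKerEquivRange (pointHom G)).symm.toEquiv
  exact Subgroup.finiteIndex_of_finite_quotient

/-- The lattice is cobounded. -/
theorem exists_near_lattice (hG : IsCrystallographic G) :
    ∃ R : ℝ, ∀ x : V, ∃ v ∈ transLattice G, ‖v - x‖ ≤ R := by
  classical
  obtain ⟨R, hR⟩ := hG.2
  haveI := finite_pointGroup hG
  haveI := Fintype.ofFinite (pointHom G).range
  choose s hs using fun A : (pointHom G).range => A.2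
  refine ⟨R + ∑ A, ‖(s A).1 0‖, fun x => ?_⟩
  obtain ⟨γ, hγ, hγx⟩ := hR x
  obtain ⟨A, hA⟩ : ∃ A : (pointHom G).range, A.1 = rotHom V γ := ⟨⟨_, ⟨γ, hγ⟩, rfl⟩, rfl⟩
  obtain ⟨t, ht⟩ : ∃ t, t = γ * (s A).1⁻¹ := ⟨_, rfl⟩
  have htrot : rotHom V t = 1 := by
    rw [ht, map_mul, map_inv, mul_inv_eq_one, ← hA, ← hs A]
    rfl
  refine ⟨t 0, apply_zero_mem_transLattice (ht ▸ G.mul_mem hγ (G.inv_mem (s A).2)) htrot, ?_⟩
  have e : γ 0 = (s A).1 0 + t 0 := by
    have h := mul_zero_apply t (s A).1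
    rw [htrot, ht, inv_mul_cancel_right, ← ht] at h
    exact h
  calc ‖t 0 - x‖ = ‖(γ 0 - x) - (s A).1 0‖ := by rw [e]; abel_nf
    _ ≤ R + ∑ A, ‖(s A).1 0‖ := (norm_sub_le _ _).trans (add_le_add hγx
        (Finset.single_le_sum (f := fun B => ‖(s B).1 0‖) (fun _ _ => norm_nonneg _)
          (Finset.mem_univ A)))

/-- **Bieberbach's first theorem.** -/
theorem span_transLattice (hG : IsCrystallographic G) :
    Submodule.span ℝ (transLattice G : Set V) = ⊤ := by
  rw [← Submodule.orthogonal_eq_bot_iff, Submodule.eq_bot_iff]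
  intro u hu
  by_contra h0
  have hu0 : 0 < ‖u‖ := norm_pos_iff.2 h0
  obtain ⟨R, hR⟩ := exists_near_lattice hG
  have hR0 : 0 ≤ R := by
    obtain ⟨v, -, hv⟩ := hR 0
    exact (norm_nonneg _).trans hv
  obtain ⟨v, hv, hvx⟩ := hR (((R + 1) / ‖u‖) • u)
  have h := abs_real_inner_le_norm (v - ((R + 1) / ‖u‖) • u) u
  rw [inner_sub_left, Submodule.inner_right_of_mem_orthogonal (Submodule.subset_span hv) hu,
    real_inner_smul_left, real_inner_self_eq_norm_sq, zero_sub, abs_neg,
    abs_of_nonneg (by positivity),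
    sq, ← mul_assoc, div_mul_cancel₀ _ hu0.ne'] at h
  nlinarith

theorem isZLattice_transLattice (hG : IsCrystallographic G) :
    haveI := discreteTopology_transLattice hG
    IsZLattice ℝ (transLattice G) :=
  haveI := discreteTopology_transLattice hG
  ⟨span_transLattice hG⟩

/-- **Abelian normal subgroups consist of translations.** -/
theorem le_ker_of_abelian_normal (hG : IsCrystallographic G) (N : Subgroup G) (hN : N.Normal)
    (hab : ∀ x ∈ N, ∀ y ∈ N, x * y = y * x) : N ≤ (pointHom G).ker := by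
  intro γ hγ
  rw [mem_ker_pointHom]
  obtain ⟨A, hA⟩ : ∃ A, A = rotHom V γ.1 := ⟨_, rfl⟩
  have key : ∀ v ∈ transLattice G, A v = v := by
    intro v hv
    obtain ⟨w, hw⟩ : ∃ w, w = A v - v := ⟨_, rfl⟩
    have hwL : w ∈ transLattice G := hw ▸ sub_mem (hA ▸ rot_mem_transLattice γ.2 hv) hv
    obtain ⟨t, ht⟩ : ∃ t : G, t.1 = shift v := ⟨⟨_, hv⟩, rfl⟩
    have hcomm : ((γ * t * γ⁻¹) * t⁻¹ : G).1 = shift w := by
      show γ.1 * t.1 * γ.1⁻¹ * t.1⁻¹ = shift w
      rw [ht, conj_shift, ← shift_neg, ← shift_add, hw, hA, sub_eq_add_neg]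
    have hmem : (γ * t * γ⁻¹) * t⁻¹ ∈ N := by
      have e : (γ * t * γ⁻¹) * t⁻¹ = γ * (t * γ⁻¹ * t⁻¹) := by group
      rw [e]
      exact N.mul_mem hγ (hN.conj_mem _ (N.inv_mem hγ) t)
    have h := congrArg Subtype.val (hab γ hγ _ hmem)
    replace h : γ.1 * shift w = shift w * γ.1 := hcomm ▸ h
    have h' : A w = w := by
      have h2 := congrArg (fun g : V ≃ᵃⁱ[ℝ] V => g 0) h
      simp only [mul_zero_apply, shift_zero_apply, rotHom_shift] at h2
      rw [← hA] at h2
      exact add_right_cancel (h2.trans (add_comm _ _))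
    have h0 : ⟪w, w⟫ = 0 := by
      have h3 : ⟪A v, w⟫ = ⟪v, w⟫ := by
        conv_lhs => rw [← h']
        exact A.inner_map_map v w
      nth_rewrite 1 [hw]
      rw [inner_sub_left, h3, sub_self]
    exact sub_eq_zero.1 (hw ▸ inner_self_eq_zero.1 h0)
  refine hA ▸ LinearIsometryEquiv.ext fun x => ?_
  exact LinearMap.congr_fun (LinearMap.ext_on (f := A.toLinearEquiv.toLinearMap)
    (g := LinearMap.id) (span_transLattice hG) key) x

end FA.Bieberbach

end
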